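import Mathlib
import Fermat.Prelude.Def_ModularCurve_PeriodMap

set_option autoImplicit false
set_option linter.unusedSectionVars false

/-!
# A group-theoretic upper bound for parabolic homomorphisms (helper50)

`G` a group generated by `S` and `U`, acting transitively on a finite set `X`, `Γ` the stabiliser
of a point.  Homomorphisms `Γ → k` that vanish on the conjugates of powers of `T = S⁻¹ U` lying in
`Γ` form a space of dimension at most `|X| + 2 - ρ(S) - ρ(U) - ρ(T)` where `ρ(g)` is the dimension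
of the `g`-invariant functions on `X` (the number of `g`-orbits).
-/

namespace Fermat.Agent.S21.H50

open MulAction Finset

section Cocycle

variable {G : Type*} [Group G] {X : Type*} [MulAction G X] {k : Type*} [Field k]

/-- Twisted cocycles `G → (X → k)`. -/
def IsCoc (c : G → X → k) : Prop :=
  ∀ g h x, c (g * h) x = c g (h • x) + c h x

theorem IsCoc.one {c : G → X → k} (hc : IsCoc c) (x : X) : c 1 x = 0 := by
  have h := hc 1 1 x
  rw [one_mul, one_smul] at h
  linear_combination -h

theorem IsCoc.inv {c : G → X → k} (hc : IsCoc c) (g : G) (x : X) :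
    c g⁻¹ x = - c g (g⁻¹ • x) := by
  have h := hc g g⁻¹ x
  rw [mul_inv_cancel, hc.one] at h
  linear_combination -h

theorem IsCoc.pow {c : G → X → k} (hc : IsCoc c) (g : G) (n : ℕ) (x : X) :
    c (g ^ n) x = ∑ i ∈ range n, c g (g ^ i • x) := by
  induction n with
  | zero => simp [hc.one]
  | succ n ih =>
    rw [pow_succ', hc g (g ^ n) x, ih, sum_range_succ, add_comm]

theorem IsCoc.eq_zero_of_closure {c : G → X → k} (hc : IsCoc c) {S U : G}
    (hgen : Subgroup.closure ({S, U} : Set G) = ⊤) (hS : ∀ x, c S x = 0) (hU : ∀ x, c U x = 0)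
    (g : G) (x : X) : c g x = 0 := by
  have hg : g ∈ Subgroup.closure ({S, U} : Set G) := by rw [hgen]; trivial
  revert x
  induction hg using Subgroup.closure_induction with
  | mem y hy =>
    rcases hy with rfl | hy
    · exact hS
    · rw [Set.mem_singleton_iff] at hy; subst hy; exact hU
  | one => exact hc.one
  | mul a b _ _ ha hb => intro x; rw [hc a b x, ha, hb, add_zero]
  | inv a _ ha => intro x; rw [hc.inv, ha, neg_zero]

end Cocycle

section Shapiro

variable {G : Type*} [Group G] {X : Type*} [MulAction G X] {k : Type*} [Field k]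
variable (x₀ : X) (r : X → G)

/-- The Schreier element `r(g x)⁻¹ g r(x)` of the stabiliser of `x₀`. -/
def gam (hr : ∀ x, r x • x₀ = x) (g : G) (x : X) : stabilizer G x₀ :=
  ⟨(r (g • x))⁻¹ * g * r x, by
    rw [mem_stabilizer_iff, mul_smul, mul_smul, hr x, inv_smul_eq_iff, hr]⟩

theorem gam_mul (hr : ∀ x, r x • x₀ = x) (g h : G) (x : X) :
    gam x₀ r hr (g * h) x = gam x₀ r hr g (h • x) * gam x₀ r hr h x := by
  apply Subtype.ext
  simp only [gam, Subgroup.coe_mul, mul_smul]
  group

/-- The cocycle attached to a homomorphism `φ` on the stabiliser and a function `v` on `X`. -/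
def coc (hr : ∀ x, r x • x₀ = x) (φ : Additive (stabilizer G x₀) →+ k) (v : X → k) :
    G → X → k :=
  fun g x => φ (Additive.ofMul (gam x₀ r hr g x)) + (v (g • x) - v x)

theorem isCoc_coc (hr : ∀ x, r x • x₀ = x) (φ : Additive (stabilizer G x₀) →+ k) (v : X → k) :
    IsCoc (coc x₀ r hr φ v) := by
  intro g h x
  simp only [coc, gam_mul, ofMul_mul, map_add, mul_smul]
  ring

end Shapiro

section Avg

variable {G : Type*} [Group G] {X : Type*} [MulAction G X] [Fintype X] {k : Type*} [Field k]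

/-- `f ↦ (x ↦ ∑_{i<m} f (g ^ i • x))`. -/
def avg (g : G) (m : ℕ) : (X → k) →ₗ[k] (X → k) where
  toFun f x := ∑ i ∈ range m, f (g ^ i • x)
  map_add' f f' := by ext x; simp [sum_add_distrib]
  map_smul' c f := by ext x; simp [mul_sum]

@[simp] theorem avg_apply (g : G) (m : ℕ) (f : X → k) (x : X) :
    avg g m f x = ∑ i ∈ range m, f (g ^ i • x) := rfl

/-- The `g`-invariant functions on `X`. -/
def invFun (k : Type*) [Field k] (g : G) : Submodule k (X → k) where
  carrier := {w | ∀ x, w (g • x) = w x}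
  add_mem' := by
    intro a b ha hb x
    simp only [Pi.add_apply, ha x, hb x]
  zero_mem' := by intro x; rfl
  smul_mem' := by
    intro c a ha x
    simp only [Pi.smul_apply, ha x]

theorem mem_invFun {g : G} {w : X → k} : w ∈ invFun k g ↔ ∀ x, w (g • x) = w x := Iff.rfl

theorem sum_shift {M : Type*} [AddCommGroup M] (F : ℕ → M) (m : ℕ) (h : F m = F 0) :
    ∑ i ∈ range m, F (i + 1) = ∑ i ∈ range m, F i := by
  have h1 := sum_range_succ F m
  have h2 := sum_range_succ' F m
  rw [h1, h] at h2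
  exact add_right_cancel h2.symm

theorem avg_smul (g : G) (m : ℕ) (hm : ∀ x : X, g ^ m • x = x) (f : X → k) (x : X) :
    avg g m f (g • x) = avg g m f x := by
  simp only [avg_apply]
  have h : ∀ i, g ^ i • g • x = g ^ (i + 1) • x := fun i => by rw [pow_succ, mul_smul]
  simp only [h]
  exact sum_shift (fun i => f (g ^ i • x)) m (by simp only [hm, pow_zero, one_smul])

theorem avg_mem_invFun (g : G) (m : ℕ) (hm : ∀ x : X, g ^ m • x = x) (f : X → k) :
    avg g m f ∈ invFun k g := fun x => avg_smul g m hm f x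

theorem invFun_pow {g : G} {w : X → k} (hw : w ∈ invFun k g) (i : ℕ) (x : X) :
    w (g ^ i • x) = w x := by
  induction i with
  | zero => simp
  | succ i ih => rw [pow_succ', mul_smul, hw, ih]

theorem avg_of_mem_invFun {g : G} (m : ℕ) {w : X → k} (hw : w ∈ invFun k g) :
    avg g m w = (m : k) • w := by
  ext x
  simp only [avg_apply, invFun_pow hw, sum_const, card_range, nsmul_eq_mul, Pi.smul_apply,
    smul_eq_mul]

theorem range_avg [CharZero k] (g : G) (m : ℕ) (hm0 : 0 < m) (hm : ∀ x : X, g ^ m • x = x) :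
    LinearMap.range (avg (X := X) (k := k) g m) = invFun k g := by
  apply le_antisymm
  · rintro _ ⟨f, rfl⟩
    exact avg_mem_invFun g m hm f
  · intro w hw
    refine ⟨(m : k)⁻¹ • w, ?_⟩
    rw [map_smul, avg_of_mem_invFun m hw, smul_smul, inv_mul_cancel₀, one_smul]
    exact_mod_cast hm0.ne'

theorem finrank_ker_avg [CharZero k] (g : G) (m : ℕ) (hm0 : 0 < m) (hm : ∀ x : X, g ^ m • x = x) :
    Module.finrank k (LinearMap.ker (avg (X := X) (k := k) g m)) +
        Module.finrank k (invFun (X := X) k g)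
      = Fintype.card X := by
  have h := LinearMap.finrank_range_add_finrank_ker (avg (k := k) (X := X) g m)
  rw [range_avg g m hm0 hm, Module.finrank_fintype_fun_eq_card] at h
  omega

theorem sum_mul_avg {g : G} (m : ℕ) {w : X → k} (hw : w ∈ invFun k g) (f : X → k) :
    ∑ x, w x * avg g m f x = (m : k) * ∑ x, w x * f x := by
  have h : ∀ i ∈ range m, ∑ x, w x * f (g ^ i • x) = ∑ x, w x * f x := by
    intro i _
    rw [← Equiv.sum_comp (MulAction.toPerm (g ^ i)) (fun x => w x * f x)]
    refine sum_congr rfl fun x _ => ?_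
    simp only [MulAction.toPerm_apply, invFun_pow hw]
  calc ∑ x, w x * avg g m f x = ∑ x, ∑ i ∈ range m, w x * f (g ^ i • x) := by
        simp only [avg_apply, mul_sum]
    _ = ∑ i ∈ range m, ∑ x, w x * f (g ^ i • x) := sum_comm
    _ = ∑ i ∈ range m, ∑ x, w x * f x := sum_congr rfl h
    _ = (m : k) * ∑ x, w x * f x := by rw [sum_const, card_range, nsmul_eq_mul]

end Avg

section Main

variable {G : Type*} [Group G] {X : Type*} [MulAction G X] {k : Type*} [Field k]

/-- Homomorphisms on the stabiliser of `x₀` vanishing on all conjugates of powers of `T`. -/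
def parSub (k : Type*) [Field k] (T : G) (x₀ : X) :
    Submodule k (Additive (stabilizer G x₀) →+ k) where
  carrier := {φ | ∀ γ : stabilizer G x₀, (∃ (g : G) (m : ℕ), (γ : G) = g⁻¹ * T ^ m * g) →
      φ (Additive.ofMul γ) = 0}
  add_mem' := by
    intro a b ha hb γ hγ
    rw [AddMonoidHom.add_apply, ha γ hγ, hb γ hγ, add_zero]
  zero_mem' := by intro γ _; rfl
  smul_mem' := by
    intro c a ha γ hγ
    rw [AddMonoidHom.smul_apply, ha γ hγ, smul_zero]

/-- Functions vanishing at the base point. -/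
def vanish (k : Type*) [Field k] (x₀ : X) : Submodule k (X → k) :=
  LinearMap.ker (LinearMap.proj x₀ : (X → k) →ₗ[k] k)

theorem mem_vanish {x₀ : X} {v : X → k} : v ∈ vanish k x₀ ↔ v x₀ = 0 := Iff.rfl

theorem finrank_vanish [Fintype X] (x₀ : X) :
    Module.finrank k (vanish k x₀) + 1 = Fintype.card X := by
  have h := LinearMap.finrank_range_add_finrank_ker (LinearMap.proj x₀ : (X → k) →ₗ[k] k)
  have hs : LinearMap.range (LinearMap.proj x₀ : (X → k) →ₗ[k] k) = ⊤ :=
    LinearMap.range_eq_top.mpr (LinearMap.proj_surjective x₀)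
  rw [hs, finrank_top, Module.finrank_self, Module.finrank_fintype_fun_eq_card] at h
  unfold vanish
  omega

variable (x₀ : X) (r : X → G) (hr : ∀ x, r x • x₀ = x)

/-- Evaluation of the cocycle of `(φ, v)` at `g`, as a linear map. -/
def ev (g : G) : ((Additive (stabilizer G x₀) →+ k) × (X → k)) →ₗ[k] (X → k) where
  toFun z := coc x₀ r hr z.1 z.2 g
  map_add' := by
    intro z z'
    ext x
    simp only [coc, Prod.fst_add, Prod.snd_add, AddMonoidHom.add_apply, Pi.add_apply]
    ring
  map_smul' := by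
    intro c z
    ext x
    simp only [coc, Prod.smul_fst, Prod.smul_snd, AddMonoidHom.smul_apply, Pi.smul_apply,
      smul_eq_mul, RingHom.id_apply]
    ring

theorem ev_apply (g : G) (z : (Additive (stabilizer G x₀) →+ k) × (X → k)) (x : X) :
    ev x₀ r hr g z x = coc x₀ r hr z.1 z.2 g x := rfl

theorem gam_coe_of_fix {z : G} {x : X} (h : z • x = x) :
    (gam x₀ r hr z x : G) = (r x)⁻¹ * z * r x := by
  simp only [gam, h]

theorem coc_of_fix (φ : Additive (stabilizer G x₀) →+ k) (v : X → k) {z : G} {x : X}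
    (h : z • x = x) : coc x₀ r hr φ v z x = φ (Additive.ofMul (gam x₀ r hr z x)) := by
  simp only [coc, h, sub_self, add_zero]

theorem hom_eq_zero_of_sq [CharZero k] {Γ : Type*} [Group Γ] (φ : Additive Γ →+ k) (γ : Γ)
    (h : γ ^ 2 = 1) : φ (Additive.ofMul γ) = 0 := by
  have h2 : φ (Additive.ofMul (γ ^ 2)) = 2 • φ (Additive.ofMul γ) := by
    rw [ofMul_pow, map_nsmul]
  rw [h, ofMul_one, map_zero] at h2
  have h3 : (2 : k) * φ (Additive.ofMul γ) = 0 := by rw [two_mul, ← two_nsmul]; exact h2.symm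
  rcases mul_eq_zero.mp h3 with h4 | h4
  · exact absurd h4 two_ne_zero
  · exact h4

/-- Torsion case: `g ^ m` fixes `x` and has order dividing two. -/
theorem coc_pow_torsion [CharZero k] (φ : Additive (stabilizer G x₀) →+ k) (v : X → k) (g : G)
    (m : ℕ) (x : X) (hfix : g ^ m • x = x) (hord : (g ^ m) ^ 2 = 1) :
    coc x₀ r hr φ v (g ^ m) x = 0 := by
  rw [coc_of_fix x₀ r hr φ v hfix]
  apply hom_eq_zero_of_sq
  apply Subtype.ext
  rw [Subgroup.coe_pow, gam_coe_of_fix x₀ r hr hfix, Subgroup.coe_one]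
  generalize g ^ m = z at hord
  have : ((r x)⁻¹ * z * r x) ^ 2 = (r x)⁻¹ * z ^ 2 * r x := by
    rw [pow_two, pow_two]; group
  rw [this, hord]
  group

/-- Parabolic case. -/
theorem coc_pow_parabolic {T : G} {φ : Additive (stabilizer G x₀) →+ k}
    (hφ : φ ∈ parSub k T x₀) (v : X → k) (m : ℕ) (x : X) (hfix : T ^ m • x = x) :
    coc x₀ r hr φ v (T ^ m) x = 0 := by
  rw [coc_of_fix x₀ r hr φ v hfix]
  exact hφ _ ⟨r x, m, gam_coe_of_fix x₀ r hr hfix⟩

end Main

section Count

variable {G : Type*} [Group G] {X : Type*} [MulAction G X] [Fintype X] [DecidableEq X]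
  {k : Type*} [Field k] [CharZero k]
variable (x₀ : X) (r : X → G) (hr : ∀ x, r x • x₀ = x)
variable (S U : G) (n : ℕ)

theorem avg_ev_torsion (g : G) (m : ℕ) (hfix : ∀ x : X, g ^ m • x = x) (hord : (g ^ m) ^ 2 = 1)
    (z : (Additive (stabilizer G x₀) →+ k) × (X → k)) :
    avg g m (ev x₀ r hr g z) = 0 := by
  ext x
  rw [avg_apply]
  simp only [ev_apply]
  rw [← (isCoc_coc x₀ r hr z.1 z.2).pow g m x,
    coc_pow_torsion x₀ r hr z.1 z.2 g m x (hfix x) hord]
  rfl

theorem avg_ev_parabolic (hTn : ∀ x : X, (S⁻¹ * U) ^ n • x = x)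
    (z : (Additive (stabilizer G x₀) →+ k) × (X → k)) (hz : z.1 ∈ parSub k (S⁻¹ * U) x₀) :
    avg (S⁻¹ * U) n (ev x₀ r hr S z) = avg (S⁻¹ * U) n (ev x₀ r hr U z) := by
  have hc := isCoc_coc x₀ r hr z.1 z.2
  have h1 : ∀ y, coc x₀ r hr z.1 z.2 (S⁻¹ * U) y
      = - coc x₀ r hr z.1 z.2 S ((S⁻¹ * U) • y) + coc x₀ r hr z.1 z.2 U y := by
    intro y
    rw [hc S⁻¹ U y, hc.inv S (U • y), mul_smul]
  ext x
  have h2 : ∑ i ∈ range n, coc x₀ r hr z.1 z.2 (S⁻¹ * U) ((S⁻¹ * U) ^ i • x) = 0 := by
    rw [← hc.pow (S⁻¹ * U) n x]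
    exact coc_pow_parabolic x₀ r hr hz z.2 n x (hTn x)
  simp only [h1, sum_add_distrib, sum_neg_distrib] at h2
  have h3 : ∑ i ∈ range n, coc x₀ r hr z.1 z.2 S ((S⁻¹ * U) • (S⁻¹ * U) ^ i • x)
      = ∑ i ∈ range n, coc x₀ r hr z.1 z.2 S ((S⁻¹ * U) ^ i • x) := by
    have h := avg_smul (S⁻¹ * U) n hTn (coc x₀ r hr z.1 z.2 S) x
    simp only [avg_apply] at h
    rw [← h]
    refine sum_congr rfl fun i _ => ?_
    rw [← mul_smul, ← mul_smul, ← pow_succ, ← pow_succ']
  rw [h3] at h2
  simp only [avg_apply, ev_apply]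
  linear_combination -h2

theorem ev_eq_zero_imp [IsPretransitive G X] (hgen : Subgroup.closure ({S, U} : Set G) = ⊤)
    (z : (Additive (stabilizer G x₀) →+ k) × (X → k))
    (hS : ev x₀ r hr S z = 0) (hU : ev x₀ r hr U z = 0) (hv : z.2 x₀ = 0) : z = 0 := by
  have hc := isCoc_coc x₀ r hr z.1 z.2
  have h0 : ∀ g x, coc x₀ r hr z.1 z.2 g x = 0 :=
    hc.eq_zero_of_closure hgen (fun x => congrFun hS x) (fun x => congrFun hU x)
  have hφ : z.1 = 0 := by
    refine AddMonoidHom.ext fun γ => ?_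
    obtain ⟨γ', rfl⟩ : ∃ γ' : stabilizer G x₀, Additive.ofMul γ' = γ := ⟨Additive.toMul γ, rfl⟩
    have hr0 : (r x₀)⁻¹ • x₀ = x₀ := by rw [inv_smul_eq_iff, hr]
    have hfix : (r x₀ * (γ' : G) * (r x₀)⁻¹) • x₀ = x₀ := by
      rw [mul_smul, mul_smul, hr0, mem_stabilizer_iff.mp γ'.2, hr]
    have h := h0 (r x₀ * (γ' : G) * (r x₀)⁻¹) x₀
    rw [coc_of_fix x₀ r hr z.1 z.2 hfix] at h
    have hg : gam x₀ r hr (r x₀ * (γ' : G) * (r x₀)⁻¹) x₀ = γ' := by
      apply Subtype.ext
      rw [gam_coe_of_fix x₀ r hr hfix]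
      group
    rw [hg] at h
    simpa using h
  have hv0 : z.2 = 0 := by
    funext x
    obtain ⟨g, rfl⟩ := exists_smul_eq G x₀ x
    have h := h0 g x₀
    simp only [coc, hφ, AddMonoidHom.zero_apply, zero_add, hv, sub_zero] at h
    simpa using h
  exact Prod.ext hφ hv0

/-- The pairing of functions with `T`-invariant functions. -/
def pairInv (T : G) : (X → k) →ₗ[k] Module.Dual k (invFun (X := X) k T) where
  toFun f :=
    { toFun := fun w => ∑ x, (w : X → k) x * f x
      map_add' := by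
        intro w w'
        simp only [Submodule.coe_add, Pi.add_apply, add_mul, sum_add_distrib]
      map_smul' := by
        intro c w
        simp only [Submodule.coe_smul, Pi.smul_apply, smul_eq_mul, RingHom.id_apply, mul_sum,
          mul_assoc] }
  map_add' := by
    intro f f'
    ext w
    simp only [LinearMap.coe_mk, AddHom.coe_mk, Pi.add_apply, mul_add, sum_add_distrib,
      LinearMap.add_apply]
  map_smul' := by
    intro c f
    ext w
    simp only [LinearMap.coe_mk, AddHom.coe_mk, Pi.smul_apply, smul_eq_mul, mul_sum,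
      mul_left_comm, RingHom.id_apply, LinearMap.smul_apply]

theorem pairInv_apply (T : G) (f : X → k) (w : invFun (X := X) k T) :
    pairInv T f w = ∑ x, (w : X → k) x * f x := rfl

theorem sub_comp_mem_ker (g : G) (m : ℕ) (hm : ∀ x : X, g ^ m • x = x) (f : X → k) :
    f - (fun y => f (g • y)) ∈ LinearMap.ker (avg (X := X) (k := k) g m) := by
  rw [LinearMap.mem_ker, map_sub, sub_eq_zero]
  ext y
  rw [← avg_smul g m hm f y]
  simp only [avg_apply]
  refine sum_congr rfl fun i _ => ?_
  rw [← mul_smul, ← mul_smul, ← pow_succ, ← pow_succ']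

theorem sum_single_sub (g : G) (w : X → k) (x : X) :
    ∑ y, w y * ((Pi.single (g • x) (1 : k) : X → k) y
        - (Pi.single (g • x) (1 : k) : X → k) (g • y)) = w (g • x) - w x := by
  simp only [mul_sub, sum_sub_distrib]
  congr 1
  · rw [sum_eq_single (g • x)]
    · simp
    · intro y _ hy
      rw [Pi.single_apply, if_neg hy, mul_zero]
    · intro h; exact absurd (mem_univ _) h
  · rw [sum_eq_single x]
    · simp
    · intro y _ hy
      rw [Pi.single_apply, if_neg (fun h => hy (smul_left_cancel g h)), mul_zero]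
    · intro h; exact absurd (mem_univ _) h

/-- **Abstract bound.**  Parabolic homomorphisms on a point stabiliser of a finite transitive
`G`-set, `G = ⟨S, U⟩`, `S²` and `U³` acting trivially and of order dividing two. -/
theorem main_bound [IsPretransitive G X]
    (hgen : Subgroup.closure ({S, U} : Set G) = ⊤)
    (hS2 : ∀ x : X, S ^ 2 • x = x) (hSord : (S ^ 2) ^ 2 = 1)
    (hU3 : ∀ x : X, U ^ 3 • x = x) (hUord : (U ^ 3) ^ 2 = 1)
    (hn : 0 < n) (hTn : ∀ x : X, (S⁻¹ * U) ^ n • x = x) :
    Module.Finite k (parSub k (S⁻¹ * U) x₀) ∧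
    Module.finrank k (parSub k (S⁻¹ * U) x₀) + Module.finrank k (invFun (X := X) k S)
      + Module.finrank k (invFun (X := X) k U)
      + Module.finrank k (invFun (X := X) k (S⁻¹ * U)) ≤ Fintype.card X + 2 := by
  classical
  choose r hr using fun x => exists_smul_eq G x₀ x
  let incl : (↥(parSub k (S⁻¹ * U) x₀) × ↥(vanish (X := X) k x₀)) →ₗ[k]
      ((Additive (stabilizer G x₀) →+ k) × (X → k)) :=
    (parSub k (S⁻¹ * U) x₀).subtype.prodMap (vanish (X := X) k x₀).subtype
  let ΨS : (↥(parSub k (S⁻¹ * U) x₀) × ↥(vanish (X := X) k x₀)) →ₗ[k]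
      ↥(LinearMap.ker (avg (X := X) (k := k) S 2)) :=
    LinearMap.codRestrict _ ((ev x₀ r hr S) ∘ₗ incl)
      (fun z => LinearMap.mem_ker.mpr (avg_ev_torsion x₀ r hr S 2 hS2 hSord (incl z)))
  let ΨU : (↥(parSub k (S⁻¹ * U) x₀) × ↥(vanish (X := X) k x₀)) →ₗ[k]
      ↥(LinearMap.ker (avg (X := X) (k := k) U 3)) :=
    LinearMap.codRestrict _ ((ev x₀ r hr U) ∘ₗ incl)
      (fun z => LinearMap.mem_ker.mpr (avg_ev_torsion x₀ r hr U 3 hU3 hUord (incl z)))
  let Ψ := ΨS.prod ΨU
  let Λ : (↥(LinearMap.ker (avg (X := X) (k := k) S 2)) ×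
      ↥(LinearMap.ker (avg (X := X) (k := k) U 3))) →ₗ[k]
      Module.Dual k (invFun (X := X) k (S⁻¹ * U)) :=
    pairInv (S⁻¹ * U) ∘ₗ
      ((LinearMap.ker (avg (X := X) (k := k) S 2)).subtype ∘ₗ LinearMap.fst k _ _
        - (LinearMap.ker (avg (X := X) (k := k) U 3)).subtype ∘ₗ LinearMap.snd k _ _)
  have hΛ : ∀ (p : ↥(LinearMap.ker (avg (X := X) (k := k) S 2)) ×
      ↥(LinearMap.ker (avg (X := X) (k := k) U 3))) (w : invFun (X := X) k (S⁻¹ * U)),
      Λ p w = ∑ x, (w : X → k) x * ((p.1 : X → k) x - (p.2 : X → k) x) := fun p w => rfl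
  have hΨinj : Function.Injective Ψ := by
    rw [injective_iff_map_eq_zero]
    intro z hz
    have h1 : ev x₀ r hr S (incl z) = 0 :=
      congrArg (fun p : ↥(LinearMap.ker (avg (X := X) (k := k) S 2)) ×
        ↥(LinearMap.ker (avg (X := X) (k := k) U 3)) => (p.1 : X → k)) hz
    have h2 : ev x₀ r hr U (incl z) = 0 :=
      congrArg (fun p : ↥(LinearMap.ker (avg (X := X) (k := k) S 2)) ×
        ↥(LinearMap.ker (avg (X := X) (k := k) U 3)) => (p.2 : X → k)) hz
    have h3 : incl z = 0 :=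
      ev_eq_zero_imp x₀ r hr S U hgen (incl z) h1 h2 (mem_vanish.mp z.2.2)
    apply Prod.ext
    · exact Subtype.ext (congrArg Prod.fst h3)
    · exact Subtype.ext (congrArg Prod.snd h3)
  have hΛΨ : ∀ z, Λ (Ψ z) = 0 := by
    intro z
    ext w
    rw [hΛ]
    show ∑ x, (w : X → k) x * (ev x₀ r hr S (incl z) x - ev x₀ r hr U (incl z) x) = 0
    have h := sum_mul_avg (k := k) n w.2 (ev x₀ r hr S (incl z) - ev x₀ r hr U (incl z))
    rw [map_sub, avg_ev_parabolic x₀ r hr S U n hTn (incl z) z.1.2, sub_self] at h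
    simp only [Pi.zero_apply, mul_zero, sum_const_zero] at h
    have hn0 : (n : k) ≠ 0 := by exact_mod_cast hn.ne'
    rcases mul_eq_zero.mp h.symm with h' | h'
    · exact absurd h' hn0
    · simpa using h'
  have hfinD : Module.Finite k
      (↥(parSub k (S⁻¹ * U) x₀) × ↥(vanish (X := X) k x₀)) :=
    Module.Finite.of_injective Ψ hΨinj
  have hfinP : Module.Finite k ↥(parSub k (S⁻¹ * U) x₀) :=
    Module.Finite.of_surjective (LinearMap.fst k _ ↥(vanish (X := X) k x₀))
      LinearMap.fst_surjective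
  refine ⟨hfinP, ?_⟩
  have hfreeP : Module.Free k ↥(parSub k (S⁻¹ * U) x₀) := by
    exact @Module.Free.of_divisionRing k ↥(parSub k (S⁻¹ * U) x₀) _
      (Submodule.addCommGroup (parSub k (S⁻¹ * U) x₀)) _
  have hD : Module.finrank k (↥(parSub k (S⁻¹ * U) x₀) × ↥(vanish (X := X) k x₀))
      = Module.finrank k ↥(parSub k (S⁻¹ * U) x₀) + Module.finrank k ↥(vanish (X := X) k x₀) :=
    Module.finrank_prod
  have h4 : Module.finrank k (↥(parSub k (S⁻¹ * U) x₀) × ↥(vanish (X := X) k x₀))
      ≤ Module.finrank k (LinearMap.ker Λ) := by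
    refine LinearMap.finrank_le_finrank_of_injective
      (f := LinearMap.codRestrict (LinearMap.ker Λ) Ψ (fun z => LinearMap.mem_ker.mpr (hΛΨ z))) ?_
    intro a b hab
    exact hΨinj (congrArg Subtype.val hab)
  have h5 := Λ.finrank_range_add_finrank_ker
  have h5' : Module.finrank k (↥(LinearMap.ker (avg (X := X) (k := k) S 2)) ×
      ↥(LinearMap.ker (avg (X := X) (k := k) U 3)))
      = Module.finrank k ↥(LinearMap.ker (avg (X := X) (k := k) S 2))
        + Module.finrank k ↥(LinearMap.ker (avg (X := X) (k := k) U 3)) :=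
    Module.finrank_prod
  have h6 := Subspace.finrank_add_finrank_dualCoannihilator_eq (LinearMap.range Λ)
  have h7 : Module.finrank k (LinearMap.range Λ).dualCoannihilator ≤ 1 := by
    let one : invFun (X := X) k (S⁻¹ * U) := ⟨fun _ => 1, fun _ => rfl⟩
    have hone : one ≠ 0 := by
      intro h
      have := congrFun (congrArg Subtype.val h) x₀
      exact one_ne_zero this
    have hco : (LinearMap.range Λ).dualCoannihilator ≤ Submodule.span k {one} := by
      intro w hw
      rw [Submodule.mem_dualCoannihilator] at hw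
      have hwS : ∀ x, (w : X → k) (S • x) = (w : X → k) x := by
        intro x
        have hmem := sub_comp_mem_ker (k := k) S 2 hS2 (Pi.single (S • x) (1 : k))
        have h := hw (Λ (⟨_, hmem⟩, 0)) ⟨_, rfl⟩
        rw [hΛ] at h
        simp only [ZeroMemClass.coe_zero, Pi.zero_apply, sub_zero, Pi.sub_apply] at h
        rw [sum_single_sub] at h
        exact sub_eq_zero.mp h
      have hwU : ∀ x, (w : X → k) (U • x) = (w : X → k) x := by
        intro x
        have hmem := sub_comp_mem_ker (k := k) U 3 hU3 (Pi.single (U • x) (1 : k))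
        have h := hw (Λ (0, ⟨_, hmem⟩)) ⟨_, rfl⟩
        rw [hΛ] at h
        simp only [ZeroMemClass.coe_zero, Pi.zero_apply, zero_sub, Pi.sub_apply, mul_neg,
          sum_neg_distrib, neg_eq_zero] at h
        rw [sum_single_sub] at h
        exact sub_eq_zero.mp h
      have hwG : ∀ g : G, ∀ x, (w : X → k) (g • x) = (w : X → k) x := by
        intro g
        have hg : g ∈ Subgroup.closure ({S, U} : Set G) := by rw [hgen]; trivial
        induction hg using Subgroup.closure_induction with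
        | mem y hy =>
          rcases hy with rfl | hy
          · exact hwS
          · rw [Set.mem_singleton_iff] at hy; rw [hy]; exact hwU
        | one => intro x; rw [one_smul]
        | mul a b _ _ ha hb => intro x; rw [mul_smul, ha, hb]
        | inv a _ ha =>
          intro x
          have := ha (a⁻¹ • x)
          rw [smul_inv_smul] at this
          exact this.symm
      rw [Submodule.mem_span_singleton]
      refine ⟨(w : X → k) x₀, ?_⟩
      apply Subtype.ext
      funext x
      obtain ⟨g, rfl⟩ := exists_smul_eq G x₀ x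
      simp [one, hwG g x₀]
    calc Module.finrank k (LinearMap.range Λ).dualCoannihilator
        ≤ Module.finrank k (Submodule.span k {one}) := Submodule.finrank_mono hco
      _ = 1 := finrank_span_singleton hone
  have hS' := finrank_ker_avg (k := k) (X := X) S 2 (by norm_num) hS2
  have hU' := finrank_ker_avg (k := k) (X := X) U 3 (by norm_num) hU3
  have hV := finrank_vanish (k := k) x₀
  omega

end Count

section Orbits

variable {G : Type*} [Group G] {X : Type*} [MulAction G X] [Fintype X] {k : Type*} [Field k]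

theorem invFun_zpowers {g : G} {w : X → k} (hw : w ∈ invFun k g) {h : G}
    (hh : h ∈ Subgroup.zpowers g) (x : X) : w (h • x) = w x := by
  let H : Subgroup G :=
    { carrier := {h | ∀ x, w (h • x) = w x}
      mul_mem' := by
        intro a b ha hb x
        rw [mul_smul, ha, hb]
      one_mem' := by intro x; rw [one_smul]
      inv_mem' := by
        intro a ha x
        have := ha (a⁻¹ • x)
        rw [smul_inv_smul] at this
        exact this.symm }
  have hle : Subgroup.zpowers g ≤ H := by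
    rw [Subgroup.zpowers_le]
    exact hw
  exact hle hh x

/-- Pull back a function on the orbit space of `⟨g⟩` to a `g`-invariant function. -/
def orbFun (k : Type*) [Field k] (g : G) :
    (orbitRel.Quotient (Subgroup.zpowers g) X → k) →ₗ[k] invFun (X := X) k g where
  toFun F := ⟨fun x => F (Quotient.mk'' x), by
    intro x
    have : (Quotient.mk'' (g • x) : orbitRel.Quotient (Subgroup.zpowers g) X) = Quotient.mk'' x := by
      apply Quotient.sound'
      exact ⟨⟨g, Subgroup.mem_zpowers g⟩, rfl⟩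
    show F (Quotient.mk'' (g • x)) = F (Quotient.mk'' x)
    rw [this]⟩
  map_add' F F' := rfl
  map_smul' c F := rfl

theorem orbFun_injective (g : G) : Function.Injective (orbFun (X := X) k g) := by
  intro F F' h
  funext q
  induction q using Quotient.inductionOn' with
  | h x => exact congrFun (congrArg Subtype.val h) x

theorem orbFun_surjective (g : G) : Function.Surjective (orbFun (X := X) k g) := by
  intro w
  refine ⟨fun q => Quotient.liftOn' q (w : X → k) ?_, ?_⟩
  · intro a b hab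
    obtain ⟨h, rfl⟩ := hab
    exact invFun_zpowers w.2 h.2 b
  · apply Subtype.ext
    funext x
    rfl

theorem finrank_invFun (g : G) :
    Module.finrank k (invFun (X := X) k g)
      = Nat.card (orbitRel.Quotient (Subgroup.zpowers g) X) := by
  classical
  have : Fintype (orbitRel.Quotient (Subgroup.zpowers g) X) := Fintype.ofFinite _
  have e := LinearEquiv.ofBijective (orbFun (X := X) k g) ⟨orbFun_injective g, orbFun_surjective g⟩
  rw [← e.finrank_eq, Module.finrank_fintype_fun_eq_card, Nat.card_eq_fintype_card]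

end Orbits

section Concrete

open scoped MatrixGroups
open ModularCurve.Period

variable {k : Type*} [Field k]

/-- The stabiliser of the trivial coset is `Γ`. -/
def stabEquiv (Γ : Subgroup SL(2, ℤ)) :
    stabilizer SL(2, ℤ) ((1 : SL(2, ℤ)) : SL(2, ℤ) ⧸ Γ) ≃* Γ :=
  MulEquiv.subgroupCongr (MulAction.stabilizer_quotient Γ)

theorem coe_stabEquiv (Γ : Subgroup SL(2, ℤ))
    (γ : stabilizer SL(2, ℤ) ((1 : SL(2, ℤ)) : SL(2, ℤ) ⧸ Γ)) :
    ((stabEquiv Γ γ : Γ) : SL(2, ℤ)) = (γ : SL(2, ℤ)) := rfl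

/-- Transport of homomorphisms from `Γ` to the stabiliser of the trivial coset. -/
def transfer (k : Type*) [Field k] (Γ : Subgroup SL(2, ℤ)) :
    (Additive Γ →+ k) →ₗ[k]
      (Additive (stabilizer SL(2, ℤ) ((1 : SL(2, ℤ)) : SL(2, ℤ) ⧸ Γ)) →+ k) where
  toFun φ :=
    { toFun := fun γ => φ (Additive.ofMul (stabEquiv Γ (Additive.toMul γ)))
      map_zero' := by simp
      map_add' := by intro a b; simp }
  map_add' φ ψ := rfl
  map_smul' c φ := rfl

theorem transfer_apply (Γ : Subgroup SL(2, ℤ)) (φ : Additive Γ →+ k)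
    (γ : stabilizer SL(2, ℤ) ((1 : SL(2, ℤ)) : SL(2, ℤ) ⧸ Γ)) :
    transfer k Γ φ (Additive.ofMul γ) = φ (Additive.ofMul (stabEquiv Γ γ)) := rfl

theorem transfer_injective (Γ : Subgroup SL(2, ℤ)) : Function.Injective (transfer k Γ) := by
  intro φ ψ h
  refine AddMonoidHom.ext fun γ => ?_
  have := DFunLike.congr_fun h (Additive.ofMul ((stabEquiv Γ).symm (Additive.toMul γ)))
  simpa [transfer_apply] using this

theorem trace_conj_T_pow (g : SL(2, ℤ)) (m : ℕ) :
    ((g⁻¹ * ModularGroup.T ^ m * g : SL(2, ℤ)) : Matrix (Fin 2) (Fin 2) ℤ).trace = 2 := by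
  rw [Matrix.SpecialLinearGroup.coe_mul, Matrix.trace_mul_comm, ← Matrix.SpecialLinearGroup.coe_mul,
    mul_inv_cancel_left, ← zpow_natCast, ModularGroup.coe_T_zpow]
  simp [Matrix.trace_fin_two]

theorem transfer_mem_parSub (Γ : Subgroup SL(2, ℤ)) {φ : Additive Γ →+ k}
    (hφ : φ ∈ parabolicHoms k Γ k) :
    transfer k Γ φ ∈ parSub k ModularGroup.T ((1 : SL(2, ℤ)) : SL(2, ℤ) ⧸ Γ) := by
  rintro γ ⟨g, m, hγ⟩
  rw [transfer_apply]
  apply hφ
  rw [coe_stabEquiv, hγ, trace_conj_T_pow]
  norm_num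

theorem closure_S_ST :
    Subgroup.closure ({ModularGroup.S, ModularGroup.S * ModularGroup.T} : Set SL(2, ℤ)) = ⊤ := by
  rw [eq_top_iff, ← SpecialLinearGroup.SL2Z_generators, Subgroup.closure_le]
  rintro x (rfl | hx)
  · exact Subgroup.subset_closure (by simp)
  · rw [Set.mem_singleton_iff] at hx
    subst hx
    have h1 : ModularGroup.S ∈
        Subgroup.closure ({ModularGroup.S, ModularGroup.S * ModularGroup.T} : Set SL(2, ℤ)) :=
      Subgroup.subset_closure (by simp)
    have h2 : ModularGroup.S * ModularGroup.T ∈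
        Subgroup.closure ({ModularGroup.S, ModularGroup.S * ModularGroup.T} : Set SL(2, ℤ)) :=
      Subgroup.subset_closure (by simp)
    have h3 := Subgroup.mul_mem _ (Subgroup.inv_mem _ h1) h2
    rwa [inv_mul_cancel_left] at h3

theorem S_sq : ModularGroup.S ^ 2 = (-1 : SL(2, ℤ)) := by
  ext i j
  fin_cases i <;> fin_cases j <;> simp [pow_two, ModularGroup.S, Matrix.mul_apply, Fin.sum_univ_two]

theorem ST_cube : (ModularGroup.S * ModularGroup.T) ^ 3 = (-1 : SL(2, ℤ)) := by
  ext i j
  fin_cases i <;> fin_cases j <;>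
    simp [pow_succ, ModularGroup.S, ModularGroup.T, Matrix.mul_apply, Fin.sum_univ_two]

theorem neg_one_smul_coset (Γ : Subgroup SL(2, ℤ)) (hneg : (-1 : SL(2, ℤ)) ∈ Γ)
    (x : SL(2, ℤ) ⧸ Γ) : (-1 : SL(2, ℤ)) • x = x := by
  induction x using QuotientGroup.induction_on with
  | H g =>
    rw [MulAction.Quotient.smul_mk, smul_eq_mul, QuotientGroup.eq]
    have : (-1 * g)⁻¹ * g = (-1 : SL(2, ℤ)) := by
      rw [mul_inv_rev, mul_assoc]
      have h1 : ((-1 : SL(2, ℤ)))⁻¹ = -1 := by
        rw [inv_eq_iff_mul_eq_one]; simp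
      rw [h1, neg_one_mul, mul_neg, inv_mul_cancel]
    rw [this]
    exact hneg

/-- **Concrete bound.**  For a finite index subgroup `Γ ∋ -1` of `SL(2, ℤ)`, the parabolic
homomorphisms `Γ → k` form a finite-dimensional space whose dimension plus the numbers of orbits
of `S`, `S T` and `T` on `SL(2, ℤ) ⧸ Γ` is at most `[SL(2, ℤ) : Γ] + 2`. -/
theorem finrank_parabolicHoms_add_le [CharZero k] (Γ : Subgroup SL(2, ℤ)) [Γ.FiniteIndex]
    (hneg : (-1 : SL(2, ℤ)) ∈ Γ) :
    Module.Finite k (parabolicHoms k Γ k) ∧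
    Module.finrank k (parabolicHoms k Γ k)
      + Nat.card (orbitRel.Quotient (Subgroup.zpowers ModularGroup.S) (SL(2, ℤ) ⧸ Γ))
      + Nat.card (orbitRel.Quotient (Subgroup.zpowers (ModularGroup.S * ModularGroup.T))
          (SL(2, ℤ) ⧸ Γ))
      + Nat.card (orbitRel.Quotient (Subgroup.zpowers ModularGroup.T) (SL(2, ℤ) ⧸ Γ))
      ≤ Γ.index + 2 := by
  classical
  have : Finite (SL(2, ℤ) ⧸ Γ) := Subgroup.finite_quotient_of_finiteIndex
  have : Fintype (SL(2, ℤ) ⧸ Γ) := Fintype.ofFinite _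
  have hS2 : ∀ x : SL(2, ℤ) ⧸ Γ, ModularGroup.S ^ 2 • x = x := by
    intro x; rw [S_sq]; exact neg_one_smul_coset Γ hneg x
  have hSord : ((ModularGroup.S : SL(2, ℤ)) ^ 2) ^ 2 = 1 := by rw [S_sq]; simp
  have hU3 : ∀ x : SL(2, ℤ) ⧸ Γ, (ModularGroup.S * ModularGroup.T) ^ 3 • x = x := by
    intro x; rw [ST_cube]; exact neg_one_smul_coset Γ hneg x
  have hUord : (((ModularGroup.S * ModularGroup.T : SL(2, ℤ))) ^ 3) ^ 2 = 1 := by
    rw [ST_cube]; simp
  let n := orderOf (MulAction.toPerm ModularGroup.T : Equiv.Perm (SL(2, ℤ) ⧸ Γ))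
  have hn : 0 < n := orderOf_pos _
  have hTn : ∀ x : SL(2, ℤ) ⧸ Γ,
      (ModularGroup.S⁻¹ * (ModularGroup.S * ModularGroup.T)) ^ n • x = x := by
    intro x
    rw [inv_mul_cancel_left]
    have h := pow_orderOf_eq_one (MulAction.toPerm ModularGroup.T : Equiv.Perm (SL(2, ℤ) ⧸ Γ))
    have h2 := congrArg (fun p : Equiv.Perm (SL(2, ℤ) ⧸ Γ) => p x) h
    simp only [Equiv.Perm.coe_one, id_eq] at h2
    rw [← MulAction.toPermHom_apply, ← map_pow, MulAction.toPermHom_apply] at h2
    exact h2
  obtain ⟨hfin, hb⟩ := main_bound (k := k) ((1 : SL(2, ℤ)) : SL(2, ℤ) ⧸ Γ) ModularGroup.S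
    (ModularGroup.S * ModularGroup.T) n closure_S_ST hS2 hSord hU3 hUord hn hTn
  rw [inv_mul_cancel_left] at hfin hb
  rw [finrank_invFun, finrank_invFun, finrank_invFun] at hb
  let L : ↥(parabolicHoms k Γ k) →ₗ[k]
      ↥(parSub k ModularGroup.T ((1 : SL(2, ℤ)) : SL(2, ℤ) ⧸ Γ)) :=
    LinearMap.codRestrict _ ((transfer k Γ) ∘ₗ (parabolicHoms k Γ k).subtype)
      (fun φ => transfer_mem_parSub Γ φ.2)
  have hL : Function.Injective L := by
    intro a b hab
    apply Subtype.ext
    exact transfer_injective Γ (congrArg Subtype.val hab)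
  have hidx : Fintype.card (SL(2, ℤ) ⧸ Γ) = Γ.index := by
    rw [Subgroup.index_eq_card, Nat.card_eq_fintype_card]
  have hle := LinearMap.finrank_le_finrank_of_injective hL
  have hb' : Module.finrank k (parSub k ModularGroup.T ((1 : SL(2, ℤ)) : SL(2, ℤ) ⧸ Γ))
      + Nat.card (orbitRel.Quotient (Subgroup.zpowers ModularGroup.S) (SL(2, ℤ) ⧸ Γ))
      + Nat.card (orbitRel.Quotient (Subgroup.zpowers (ModularGroup.S * ModularGroup.T))
          (SL(2, ℤ) ⧸ Γ))
      + Nat.card (orbitRel.Quotient (Subgroup.zpowers ModularGroup.T) (SL(2, ℤ) ⧸ Γ))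
      ≤ Fintype.card (SL(2, ℤ) ⧸ Γ) + 2 := hb
  refine ⟨?_, ?_⟩
  · have : IsNoetherian k ↥(parSub k ModularGroup.T ((1 : SL(2, ℤ)) : SL(2, ℤ) ⧸ Γ)) := by
      exact @isNoetherian_of_isNoetherianRing_of_finite k _ _
        (Submodule.addCommGroup _) _ _ hfin
    exact Module.Finite.of_injective L hL
  · rw [← hidx]
    omega

end Concrete

section GammaZero

open scoped MatrixGroups
open ModularCurve.Period

theorem neg_one_mem_Gamma0 (N : ℕ) : (-1 : SL(2, ℤ)) ∈ CongruenceSubgroup.Gamma0 N := by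
  rw [CongruenceSubgroup.Gamma0_mem]
  simp

/-- The bound for `Γ₀(N)` over `ℂ`, in the shape used by the Eichler–Shimura assembly. -/
theorem finrank_parabolicHoms_Gamma0_add_le (N : ℕ) [NeZero N] :
    Module.Finite ℂ (parabolicHoms ℂ (CongruenceSubgroup.Gamma0 N) ℂ) ∧
    Module.finrank ℂ (parabolicHoms ℂ (CongruenceSubgroup.Gamma0 N) ℂ)
      + Nat.card (orbitRel.Quotient (Subgroup.zpowers ModularGroup.S)
          (SL(2, ℤ) ⧸ CongruenceSubgroup.Gamma0 N))
      + Nat.card (orbitRel.Quotient (Subgroup.zpowers (ModularGroup.S * ModularGroup.T))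
          (SL(2, ℤ) ⧸ CongruenceSubgroup.Gamma0 N))
      + Nat.card (orbitRel.Quotient (Subgroup.zpowers ModularGroup.T)
          (SL(2, ℤ) ⧸ CongruenceSubgroup.Gamma0 N))
      ≤ (CongruenceSubgroup.Gamma0 N).index + 2 :=
  finrank_parabolicHoms_add_le (CongruenceSubgroup.Gamma0 N) (neg_one_mem_Gamma0 N)

end GammaZero

end Fermat.Agent.S21.H50
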