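import Mathlib

/-!
# S21, piece P3a: a maximum-modulus principle on `Γ₀(N) \ ℍ*`

`const_of_norm_invariant`: a holomorphic function `g : ℍ → ℂ` whose norm is `Γ₀(N)`-invariant,
all of whose `SL(2, ℤ)`-translates are `N`-periodic with a limit at `i∞`, is constant.

Proof: for each coset `x` of `Γ₀(N)` the translate `g ∘ δ_x` has a cusp function `G_x`, holomorphic
on the open unit disc.  Moving a point into `{im ≥ 1/2}` by `SL(2, ℤ)` shows that the supremum of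
all `‖G_x‖` over the disc is attained on a closed disc of radius `< 1`, and the maximum modulus
principle applies.
-/

set_option autoImplicit false

open UpperHalfPlane CongruenceSubgroup Filter Topology Function Complex

open scoped MatrixGroups Real Manifold

namespace Fermat.Agent.S21.H91

local notation "I∞" => comap Complex.im atTop

/-- The translate of `g` by `δ`, extended to `ℂ`. -/
noncomputable def trans (g : ℍ → ℂ) (δ : SL(2, ℤ)) : ℂ → ℂ :=
  fun z => g (δ • ofComplex z)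

theorem trans_coe (g : ℍ → ℂ) (δ : SL(2, ℤ)) (τ : ℍ) : trans g δ (τ : ℂ) = g (δ • τ) := by
  simp [trans]

theorem trans_periodic {N : ℕ} (g : ℍ → ℂ)
    (hper : ∀ (δ : SL(2, ℤ)) (z : ℍ), g (δ • ((N : ℝ) +ᵥ z)) = g (δ • z)) (δ : SL(2, ℤ)) :
    Periodic (trans g δ) (N : ℝ) := by
  intro z
  by_cases hz : 0 < z.im
  · have hz' : 0 < (z + ((N : ℝ) : ℂ)).im := by simpa using hz
    have e : ofComplex (z + ((N : ℝ) : ℂ)) = (N : ℝ) +ᵥ ofComplex z := by
      rw [ofComplex_apply_of_im_pos hz', ofComplex_apply_of_im_pos hz]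
      apply UpperHalfPlane.ext
      rw [UpperHalfPlane.coe_vadd]
      simp [add_comm]
    simp only [trans]
    rw [e, hper]
  · have hz0 : z.im ≤ 0 := not_lt.mp hz
    have hz' : (z + ((N : ℝ) : ℂ)).im ≤ 0 := by simpa using hz0
    simp only [trans]
    rw [ofComplex_apply_eq_of_im_nonpos hz' hz0]

theorem trans_differentiableAt (g : ℍ → ℂ)
    (hg : DifferentiableOn ℂ (g ∘ ofComplex) {z : ℂ | 0 < z.im}) (δ : SL(2, ℤ))
    {z : ℂ} (hz : 0 < z.im) : DifferentiableAt ℂ (trans g δ) z := by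
  have hgM : MDiff g := mdifferentiable_iff.mpr hg
  have hsm : MDiff (fun τ : ℍ => δ • τ) := by
    have h1 : MDiff (fun τ : ℍ => (Matrix.SpecialLinearGroup.mapGL ℝ δ) • τ) :=
      mdifferentiable_smul (by simp)
    exact h1
  have hcomp : MDiff (fun τ : ℍ => g (δ • τ)) := hgM.comp hsm
  have := mdifferentiableAt_iff.mp (hcomp ⟨z, hz⟩)
  exact this

theorem trans_bounded (g : ℍ → ℂ) (δ : SL(2, ℤ))
    (hlim : ∃ L : ℂ, Tendsto (fun w : ℍ => g (δ • w)) atImInfty (𝓝 L)) :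
    BoundedAtFilter I∞ (trans g δ) := by
  obtain ⟨L, hL⟩ := hlim
  have h1 : Tendsto (trans g δ) I∞ (𝓝 L) := hL.comp tendsto_comap_im_ofComplex
  exact h1.isBigO_one ℝ

theorem eventually_im_pos : ∀ᶠ z : ℂ in I∞, 0 < z.im :=
  tendsto_comap.eventually (eventually_gt_atTop 0)

/-- The cusp function of a translate is holomorphic on the open unit disc. -/
theorem cusp_differentiableOn {N : ℕ} [NeZero N] (g : ℍ → ℂ)
    (hg : DifferentiableOn ℂ (g ∘ ofComplex) {z : ℂ | 0 < z.im})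
    (hper : ∀ (δ : SL(2, ℤ)) (z : ℍ), g (δ • ((N : ℝ) +ᵥ z)) = g (δ • z))
    (hlim : ∀ δ : SL(2, ℤ), ∃ L : ℂ, Tendsto (fun w : ℍ => g (δ • w)) atImInfty (𝓝 L))
    (δ : SL(2, ℤ)) :
    DifferentiableOn ℂ (Periodic.cuspFunction (N : ℝ) (trans g δ)) (Metric.ball 0 1) := by
  have hN : (0 : ℝ) < N := by exact_mod_cast Nat.pos_of_ne_zero (NeZero.ne N)
  intro q hq
  have hq1 : ‖q‖ < 1 := by simpa using hq
  apply DifferentiableAt.differentiableWithinAt
  rcases eq_or_ne q 0 with rfl | hq0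
  · refine Periodic.differentiableAt_cuspFunction_zero hN (trans_periodic g hper δ) ?_
      (trans_bounded g δ (hlim δ))
    filter_upwards [eventually_im_pos] with z hz using trans_differentiableAt g hg δ hz
  · have hz := Periodic.im_invQParam_pos_of_norm_lt_one hN hq1 hq0
    have := Periodic.differentiableAt_cuspFunction hN.ne' (trans_periodic g hper δ)
      (trans_differentiableAt g hg δ hz)
    rwa [Periodic.qParam_right_inv hN.ne' hq0] at this

theorem cusp_qParam {N : ℕ} [NeZero N] (g : ℍ → ℂ)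
    (hper : ∀ (δ : SL(2, ℤ)) (z : ℍ), g (δ • ((N : ℝ) +ᵥ z)) = g (δ • z))
    (δ : SL(2, ℤ)) (τ : ℍ) :
    Periodic.cuspFunction (N : ℝ) (trans g δ) (Periodic.qParam (N : ℝ) (τ : ℂ)) = g (δ • τ) := by
  have hN : (0 : ℝ) < N := by exact_mod_cast Nat.pos_of_ne_zero (NeZero.ne N)
  rw [Periodic.eq_cuspFunction hN.ne' (trans_periodic g hper δ), trans_coe]

theorem norm_qParam_le {N : ℕ} [NeZero N] (τ : ℍ) (hτ : 1 / 2 ≤ τ.im) :
    ‖Periodic.qParam (N : ℝ) (τ : ℂ)‖ ≤ Real.exp (-π / N) := by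
  have hN : (0 : ℝ) < N := by exact_mod_cast Nat.pos_of_ne_zero (NeZero.ne N)
  rw [Periodic.norm_qParam, Real.exp_le_exp]
  rw [div_le_div_iff_of_pos_right hN]
  have hτ' : 1 / 2 ≤ (τ : ℂ).im := hτ
  nlinarith [Real.pi_pos]

/-- Coset representatives: every translate of `g` has the same norm as one of finitely many. -/
theorem exists_rep {N : ℕ} (g : ℍ → ℂ)
    (hinv : ∀ γ ∈ Gamma0 N, ∀ z : ℍ, ‖g (γ • z)‖ = ‖g z‖) (σ : SL(2, ℤ)) (z : ℍ) :
    ∃ x : SL(2, ℤ) ⧸ Gamma0 N, ‖g (σ • z)‖ = ‖g ((x.out)⁻¹ • z)‖ := by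
  refine ⟨QuotientGroup.mk σ⁻¹, ?_⟩
  obtain ⟨h, hh⟩ := QuotientGroup.mk_out_eq_mul (Gamma0 N) σ⁻¹
  rw [hh, mul_inv_rev, inv_inv, mul_smul]
  exact (hinv (h : SL(2, ℤ))⁻¹ (inv_mem h.2) (σ • z)).symm

/-- **P3a.** A holomorphic function on `ℍ` with `Γ₀(N)`-invariant norm, all of whose
`SL(2, ℤ)`-translates are `N`-periodic with a limit at `i∞`, is constant. -/
theorem const_of_norm_invariant (N : ℕ) [NeZero N] (g : ℍ → ℂ)
    (hg : DifferentiableOn ℂ (g ∘ ofComplex) {z : ℂ | 0 < z.im})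
    (hinv : ∀ γ ∈ Gamma0 N, ∀ z : ℍ, ‖g (γ • z)‖ = ‖g z‖)
    (hper : ∀ (δ : SL(2, ℤ)) (z : ℍ), g (δ • ((N : ℝ) +ᵥ z)) = g (δ • z))
    (hlim : ∀ δ : SL(2, ℤ), ∃ L : ℂ, Tendsto (fun w : ℍ => g (δ • w)) atImInfty (𝓝 L)) :
    ∀ z w : ℍ, g z = g w := by
  classical
  have hN : (0 : ℝ) < N := by exact_mod_cast Nat.pos_of_ne_zero (NeZero.ne N)
  have : Finite (SL(2, ℤ) ⧸ Gamma0 N) := Subgroup.finite_quotient_of_finiteIndex
  have : Nonempty (SL(2, ℤ) ⧸ Gamma0 N) := ⟨QuotientGroup.mk 1⟩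
  -- the cusp functions
  set G : SL(2, ℤ) ⧸ Gamma0 N → ℂ → ℂ :=
    fun x => Periodic.cuspFunction (N : ℝ) (trans g (x.out)⁻¹) with hGdef
  have hGdiff : ∀ x, DifferentiableOn ℂ (G x) (Metric.ball 0 1) :=
    fun x => cusp_differentiableOn g hg hper hlim _
  have hGq : ∀ x (τ : ℍ), G x (Periodic.qParam (N : ℝ) (τ : ℂ)) = g ((x.out)⁻¹ • τ) :=
    fun x τ => cusp_qParam g hper _ τ
  -- the radius
  set r : ℝ := Real.exp (-π / N) with hr
  have hr0 : 0 ≤ r := (Real.exp_pos _).le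
  have hr1 : r < 1 := by
    rw [hr, Real.exp_lt_one_iff]
    exact div_neg_of_neg_of_pos (neg_lt_zero.mpr Real.pi_pos) hN
  have hsub : Metric.closedBall (0 : ℂ) r ⊆ Metric.ball 0 1 := Metric.closedBall_subset_ball hr1
  -- maxima on the closed ball
  have hmax : ∀ x, ∃ q ∈ Metric.closedBall (0 : ℂ) r,
      IsMaxOn (norm ∘ G x) (Metric.closedBall (0 : ℂ) r) q := fun x =>
    (isCompact_closedBall (0 : ℂ) r).exists_isMaxOn (Metric.nonempty_closedBall.mpr hr0)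
      ((hGdiff x).continuousOn.mono hsub).norm
  choose q hqK hqmax using hmax
  obtain ⟨x0, hx0⟩ := Finite.exists_max (fun x => ‖G x (q x)‖)
  -- global maximum
  have hglob : IsMaxOn (norm ∘ G x0) (Metric.ball 0 1) (q x0) := by
    intro p hp
    have hp1 : ‖p‖ < 1 := by simpa using hp
    show ‖G x0 p‖ ≤ ‖G x0 (q x0)‖
    by_cases hpK : p ∈ Metric.closedBall (0 : ℂ) r
    · exact hqmax x0 hpK
    · have hp0 : p ≠ 0 := by
        rintro rfl
        exact hpK (Metric.mem_closedBall_self hr0)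
      set τ : ℍ := ⟨Periodic.invQParam (N : ℝ) p,
        Periodic.im_invQParam_pos_of_norm_lt_one hN hp1 hp0⟩ with hτ
      have hτp : Periodic.qParam (N : ℝ) (τ : ℂ) = p := Periodic.qParam_right_inv hN.ne' hp0
      obtain ⟨γ, hγ⟩ := ModularGroup.exists_one_half_le_im_smul τ
      have e1 : (x0.out)⁻¹ • τ = ((x0.out)⁻¹ * γ⁻¹) • (γ • τ) := by
        rw [mul_smul, inv_smul_smul]
      obtain ⟨x', hx'⟩ := exists_rep g hinv ((x0.out)⁻¹ * γ⁻¹) (γ • τ)
      have hK' : Periodic.qParam (N : ℝ) ((γ • τ : ℍ) : ℂ) ∈ Metric.closedBall (0 : ℂ) r := by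
        rw [mem_closedBall_zero_iff]
        exact norm_qParam_le (γ • τ) hγ
      calc ‖G x0 p‖ = ‖g ((x0.out)⁻¹ • τ)‖ := by rw [← hτp, hGq]
        _ = ‖g ((x'.out)⁻¹ • (γ • τ))‖ := by rw [e1, hx']
        _ = ‖G x' (Periodic.qParam (N : ℝ) ((γ • τ : ℍ) : ℂ))‖ := by rw [hGq]
        _ ≤ ‖G x' (q x')‖ := hqmax x' hK'
        _ ≤ ‖G x0 (q x0)‖ := hx0 x'
  have hconst := Complex.eq_const_of_exists_max (hGdiff x0) (hsub (hqK x0)) hglob
  -- conclude
  have hgc : ∀ z : ℍ, g z = G x0 (q x0) := by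
    intro z
    have hz : Periodic.qParam (N : ℝ) (((x0.out) • z : ℍ) : ℂ) ∈ Metric.ball (0 : ℂ) 1 := by
      rw [mem_ball_zero_iff]
      exact Periodic.norm_qParam_lt_one hN (UpperHalfPlane.im_pos _)
    have := hconst hz
    rw [hGq, inv_smul_smul] at this
    exact this
  intro z w
  rw [hgc z, hgc w]

end Fermat.Agent.S21.H91
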