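import Mathlib
import Fermat.Prelude.Def_ModularCurve_PeriodHomPair

/-!
S21, piece P2: the range of the period map consists of parabolic homomorphisms.
Owner of this file: helper23.
-/

set_option autoImplicit false

namespace Fermat.Agent.S21.H23

open UpperHalfPlane Filter Topology CongruenceSubgroup ModularCurve ModularCurve.Period
open scoped MatrixGroups

/-- A matrix of `SL(2, ℤ)` with trace `2` is conjugate to a power of `T`. -/
theorem exists_conj_T_zpow_of_trace_eq_two (γ : SL(2, ℤ))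
    (h : (γ : Matrix (Fin 2) (Fin 2) ℤ).trace = 2) :
    ∃ (δ : SL(2, ℤ)) (m : ℤ), γ = δ * ModularGroup.T ^ m * δ⁻¹ := by
  have hdet : γ 0 0 * γ 1 1 - γ 0 1 * γ 1 0 = 1 := by
    have h0 := γ.det_coe
    rw [Matrix.det_fin_two] at h0
    exact h0
  have htr : γ 0 0 + γ 1 1 = 2 := by
    rw [Matrix.trace_fin_two] at h
    exact h
  -- a primitive fixed vector
  obtain ⟨x, y, hxy, h1, h2⟩ : ∃ x y : ℤ, IsCoprime x y ∧
      γ 0 0 * x + γ 0 1 * y = x ∧ γ 1 0 * x + γ 1 1 * y = y := by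
    by_cases hc : γ 1 0 = 0
    · have hsq : (γ 0 0 - 1) ^ 2 = 0 := by
        rw [hc] at hdet
        linear_combination (γ 0 0) * htr - hdet
      have ha : γ 0 0 = 1 := by
        have := pow_eq_zero_iff (two_ne_zero) |>.mp hsq
        linarith
      refine ⟨1, 0, isCoprime_one_left, ?_, ?_⟩
      · rw [ha]; ring
      · rw [hc]; ring
    · have hg : 0 < Int.gcd (γ 0 0 - 1) (γ 1 0) := Int.gcd_pos_of_ne_zero_right _ hc
      obtain ⟨x, y, hxy, hx, hy⟩ := Int.exists_gcd_one hg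
      have hg0 : ((Int.gcd (γ 0 0 - 1) (γ 1 0) : ℕ) : ℤ) ≠ 0 := by
        exact_mod_cast hg.ne'
      refine ⟨x, y, Int.isCoprime_iff_gcd_eq_one.mpr hxy, ?_, ?_⟩
      · apply mul_left_cancel₀ hg0
        linear_combination (γ 0 0) * htr - hdet - (γ 0 0 - 1) * hx - (γ 0 1) * hy
      · apply mul_left_cancel₀ hg0
        linear_combination (γ 1 0) * htr - (γ 1 0) * hx - (γ 1 1 - 1) * hy
  obtain ⟨δ, hδ0, hδ1⟩ := hxy.exists_SL2_col 0
  set M : SL(2, ℤ) := δ⁻¹ * γ * δ with hM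
  have hcol : ∀ k, (γ * δ) k 0 = δ k 0 := by
    intro k
    fin_cases k
    · simp [Matrix.SpecialLinearGroup.coe_mul, Matrix.mul_apply, Fin.sum_univ_two, hδ0, hδ1, h1]
    · simp [Matrix.SpecialLinearGroup.coe_mul, Matrix.mul_apply, Fin.sum_univ_two, hδ0, hδ1, h2]
  have hM0 : ∀ i, M i 0 = (1 : SL(2, ℤ)) i 0 := by
    intro i
    have e1 : (M : Matrix (Fin 2) (Fin 2) ℤ) =
        ((δ⁻¹ : SL(2, ℤ)) : Matrix (Fin 2) (Fin 2) ℤ) *
          ((γ * δ : SL(2, ℤ)) : Matrix (Fin 2) (Fin 2) ℤ) := by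
      rw [← Matrix.SpecialLinearGroup.coe_mul, hM, mul_assoc]
    have e2 : ((1 : SL(2, ℤ)) : Matrix (Fin 2) (Fin 2) ℤ) =
        ((δ⁻¹ : SL(2, ℤ)) : Matrix (Fin 2) (Fin 2) ℤ) * (δ : Matrix (Fin 2) (Fin 2) ℤ) := by
      rw [← Matrix.SpecialLinearGroup.coe_mul, inv_mul_cancel]
    show (M : Matrix (Fin 2) (Fin 2) ℤ) i 0 = ((1 : SL(2, ℤ)) : Matrix (Fin 2) (Fin 2) ℤ) i 0
    rw [e1, e2, Matrix.mul_apply, Matrix.mul_apply]
    exact Finset.sum_congr rfl fun k _ => by rw [hcol k]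
  have hM00 : M 0 0 = 1 := by simpa using hM0 0
  have hM10 : M 1 0 = 0 := by simpa using hM0 1
  have hM11 : M 1 1 = 1 := by
    have h0 := M.det_coe
    rw [Matrix.det_fin_two, hM00, hM10] at h0
    linarith
  have hMT : M = ModularGroup.T ^ (M 0 1) := by
    ext i j
    rw [ModularGroup.coe_T_zpow]
    fin_cases i <;> fin_cases j <;> simp [hM00, hM10, hM11]
  refine ⟨δ, M 0 1, ?_⟩
  rw [← hMT, hM]
  group

/-- **(P2-a)** A matrix of `SL(2, ℤ)` with `trace ^ 2 = 4` is, up to sign, conjugate to a power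
of `T`. -/
theorem exists_conj_T_zpow (γ : SL(2, ℤ))
    (h : (γ : Matrix (Fin 2) (Fin 2) ℤ).trace ^ 2 = 4) :
    ∃ (δ : SL(2, ℤ)) (m : ℤ),
      γ = δ * ModularGroup.T ^ m * δ⁻¹ ∨ γ = -(δ * ModularGroup.T ^ m * δ⁻¹) := by
  have h2 : (γ : Matrix (Fin 2) (Fin 2) ℤ).trace = 2 ∨
      (γ : Matrix (Fin 2) (Fin 2) ℤ).trace = -2 := by
    have h4 : ((γ : Matrix (Fin 2) (Fin 2) ℤ).trace - 2) *
        ((γ : Matrix (Fin 2) (Fin 2) ℤ).trace + 2) = 0 := by linear_combination h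
    rcases mul_eq_zero.mp h4 with h5 | h5
    · left; linarith
    · right; linarith
  rcases h2 with h2 | h2
  · obtain ⟨δ, m, hδ⟩ := exists_conj_T_zpow_of_trace_eq_two γ h2
    exact ⟨δ, m, Or.inl hδ⟩
  · have h3 : ((-γ : SL(2, ℤ)) : Matrix (Fin 2) (Fin 2) ℤ).trace = 2 := by
      rw [Matrix.SpecialLinearGroup.coe_neg, Matrix.trace_neg, h2]; rfl
    obtain ⟨δ, m, hδ⟩ := exists_conj_T_zpow_of_trace_eq_two (-γ) h3
    refine ⟨δ, m, Or.inr ?_⟩
    rw [← hδ, neg_neg]

theorem tendsto_T_zpow_smul_atImInfty (m : ℤ) :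
    Tendsto (fun w : ℍ => ModularGroup.T ^ m • w) atImInfty atImInfty := by
  rw [atImInfty, tendsto_comap_iff]
  have : (im ∘ fun w : ℍ => ModularGroup.T ^ m • w) = im := by
    funext w
    exact ModularGroup.im_T_zpow_smul w m
  rw [this]
  exact tendsto_comap

/-- **(P2-b)** the period homomorphism of an equivariant primitive with limits at all cusps is
parabolic. -/
theorem isParabolicHom_periodHom {Γ : Subgroup SL(2, ℤ)} {F : ℍ → ℂ}
    (hF : IsEquivariantPrimitive Γ F)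
    (hlim : ∀ δ : SL(2, ℤ), ∃ L : ℂ, Tendsto (fun w : ℍ => F (δ • w)) atImInfty (𝓝 L)) :
    IsParabolicHom Γ hF.periodHom := by
  intro γ hγ
  rw [IsEquivariantPrimitive.periodHom_apply]
  obtain ⟨δ, m, hδ⟩ := exists_conj_T_zpow (γ : SL(2, ℤ)) hγ
  have hsmul : ∀ w : ℍ, (γ : SL(2, ℤ)) • (δ • w) = δ • (ModularGroup.T ^ m • w) := by
    intro w
    rcases hδ with hδ | hδ
    · rw [hδ, mul_smul, mul_smul, inv_smul_smul]
    · rw [hδ, ModularGroup.SL_neg_smul, mul_smul, mul_smul, inv_smul_smul]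
  obtain ⟨L, hL⟩ := hlim δ
  have h1 : Tendsto (fun w : ℍ => F (δ • (ModularGroup.T ^ m • w))) atImInfty (𝓝 L) :=
    hL.comp (tendsto_T_zpow_smul_atImInfty m)
  have h2 : Tendsto (fun w : ℍ => F (δ • (ModularGroup.T ^ m • w)) - F (δ • w)) atImInfty
      (𝓝 (L - L)) := h1.sub hL
  have h3 : (fun w : ℍ => F (δ • (ModularGroup.T ^ m • w)) - F (δ • w)) =
      fun _ => hF.period γ := by
    funext w
    rw [← hsmul w]
    exact hF.sub_eq_period γ (δ • w)
  rw [h3, sub_self] at h2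
  exact tendsto_nhds_unique tendsto_const_nhds h2

/-- **(P2-c)** the period map takes values in parabolic homomorphisms (unconditionally). -/
theorem periodMap_mem_parabolicHoms (N : ℕ) (f : CuspForm (Gamma0 N) 2) :
    periodMap N f ∈ parabolicHoms ℂ (Gamma0 N) ℂ := by
  classical
  unfold periodMap
  split_ifs with h
  · rw [mem_parabolicHoms_iff]
    exact isParabolicHom_periodHom _ h.choose_spec.2.2.2
  · exact Submodule.zero_mem _

/-- **(P2-d)** the range of `periodHomPair` consists of parabolic homomorphisms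
(unconditionally). -/
theorem range_periodHomPair_le (N : ℕ) :
    LinearMap.range (periodHomPair N) ≤ parabolicHoms ℂ (Gamma0 N) ℂ := by
  classical
  unfold periodHomPair
  split_ifs with h
  · rintro _ ⟨⟨f, g⟩, rfl⟩
    have hf : h.choose f ∈ parabolicHoms ℂ (Gamma0 N) ℂ := by
      rw [h.choose_spec f]; exact periodMap_mem_parabolicHoms N f
    have hg : h.choose g ∈ parabolicHoms ℂ (Gamma0 N) ℂ := by
      rw [h.choose_spec g]; exact periodMap_mem_parabolicHoms N g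
    simp only [LinearMap.coprod_apply, LinearMap.comp_apply, LinearMap.add_apply,
      LinearMap.sub_apply, LinearMap.id_apply]
    exact Submodule.add_mem _
      (Submodule.add_mem _ hf (charInvolution_mem_parabolicHoms N ℂ ℂ hf))
      (Submodule.sub_mem _ hg (charInvolution_mem_parabolicHoms N ℂ ℂ hg))
  · rintro _ ⟨x, rfl⟩
    simp

end Fermat.Agent.S21.H23
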