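import Mathlib
import Fermat.Prelude.Def_ModularCurve_PeriodHomPair
import Fermat.Agent.S22.Nice_helper25
import Fermat.Agent.S21.Parabolic_helper23
import Fermat.Agent.S21.MaxMod_helper91

/-! S21, piece P3b (helper55): injectivity bookkeeping for the pair period map.

If the combined periods `P_f(γ) + P_f(ιγ) + P_g(γ) - P_g(ιγ)` vanish for all `γ ∈ Γ₀(N)`, then
`f = g = 0`.  With `A = F + G`, `Bc z = conj ((F - G) (-conj z))`, the functions `exp (A + Bc)` and
`exp (I * (A - Bc))` are holomorphic with `Γ₀(N)`-invariant modulus and limits at all cusps, hence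
constant by the maximum modulus lemma (P3a). -/

set_option autoImplicit false

namespace Fermat.Agent.S21.H55

open UpperHalfPlane CongruenceSubgroup Filter Topology ModularCurve ModularCurve.Period
open scoped MatrixGroups ComplexConjugate

/-- Reflection `z ↦ -conj z` of the upper half plane. -/
noncomputable def refl (z : ℍ) : ℍ := UpperHalfPlane.J • z

theorem coe_refl (z : ℍ) : ((refl z : ℍ) : ℂ) = -conj (z : ℂ) := UpperHalfPlane.coe_J_smul z

theorem refl_im (z : ℍ) : (refl z).im = z.im := by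
  have h := congrArg Complex.im (coe_refl z)
  simpa using h

theorem refl_refl (z : ℍ) : refl (refl z) = z := by
  apply UpperHalfPlane.ext
  rw [coe_refl, coe_refl]
  simp

theorem tendsto_refl : Tendsto refl atImInfty atImInfty := by
  rw [atImInfty]
  refine tendsto_comap_iff.mpr ?_
  have : (UpperHalfPlane.im ∘ refl) = UpperHalfPlane.im := by
    funext w
    exact refl_im w
  rw [this]
  exact tendsto_comap

/-- `J γ = (ι γ) J` in `GL₂(ℝ)`. -/
theorem J_mul_coe (γ : SL(2, ℤ)) :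
    UpperHalfPlane.J * (γ : GL (Fin 2) ℝ) = ((jConjSL γ : SL(2, ℤ)) : GL (Fin 2) ℝ) * UpperHalfPlane.J := by
  ext i j
  fin_cases i <;> fin_cases j <;>
    simp [Matrix.mul_apply, Fin.sum_univ_two, jConjMat]

theorem refl_smul (γ : SL(2, ℤ)) (z : ℍ) : refl (γ • z) = jConjSL γ • refl z := by
  show UpperHalfPlane.J • ((γ : GL (Fin 2) ℝ) • z) =
    ((jConjSL γ : SL(2, ℤ)) : GL (Fin 2) ℝ) • (UpperHalfPlane.J • z)
  rw [← mul_smul, ← mul_smul, J_mul_coe]

/-- Derivative of the reflected conjugate `z ↦ conj (H (-conj z))`. -/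
theorem hasDerivAt_conj_refl {H : ℍ → ℂ} {h' : ℂ} (τ : ℍ)
    (hH : HasDerivAt (H ∘ ofComplex) h' ((refl τ : ℍ) : ℂ)) :
    HasDerivAt ((fun z : ℍ => conj (H (refl z))) ∘ ofComplex) (-conj h') (τ : ℂ) := by
  have h1 : HasDerivAt (conj ∘ (H ∘ ofComplex) ∘ conj) (conj h') (conj ((refl τ : ℍ) : ℂ)) :=
    hH.conj_conj
  have e1 : conj ((refl τ : ℍ) : ℂ) = -(τ : ℂ) := by
    rw [coe_refl]
    simp
  rw [e1] at h1
  have h2 : HasDerivAt ((conj ∘ (H ∘ ofComplex) ∘ conj) ∘ fun w : ℂ => -w) (conj h' * (-1))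
      (τ : ℂ) := by
    apply HasDerivAt.comp
    · exact h1
    · exact hasDerivAt_neg' _
  have h3 : ((conj ∘ (H ∘ ofComplex) ∘ conj) ∘ fun w : ℂ => -w) =ᶠ[𝓝 (τ : ℂ)]
      ((fun z : ℍ => conj (H (refl z))) ∘ ofComplex) := by
    have hopen : {w : ℂ | 0 < w.im} ∈ 𝓝 (τ : ℂ) :=
      (isOpen_lt continuous_const Complex.continuous_im).mem_nhds τ.im_pos
    filter_upwards [hopen] with w hw
    have hw' : 0 < (conj (-w)).im := by simpa using hw
    have e : ofComplex (conj (-w)) = refl (ofComplex w) := by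
      apply UpperHalfPlane.ext
      rw [coe_refl, ofComplex_apply_of_im_pos hw, ofComplex_apply_of_im_pos hw']
      simp
    simp only [Function.comp_apply, e]
  have h4 := h2.congr_of_eventuallyEq h3.symm
  simpa using h4

/-- Trace of a conjugate of a power of `T`. -/
theorem trace_conj_T_zpow (δ : SL(2, ℤ)) (n : ℤ) :
    ((δ * ModularGroup.T ^ n * δ⁻¹ : SL(2, ℤ)) : Matrix (Fin 2) (Fin 2) ℤ).trace = 2 := by
  rw [Matrix.SpecialLinearGroup.coe_mul, Matrix.trace_mul_comm,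
    ← Matrix.SpecialLinearGroup.coe_mul, ← mul_assoc, inv_mul_cancel, one_mul,
    ModularGroup.coe_T_zpow, Matrix.trace_fin_two_of]
  norm_num

/-- The constancy criterion: a holomorphic `u` on `ℍ` whose `Γ₀(N)`-translates differ from `u`
by constants `t` with `Re (c t) = 0`, which is invariant under parabolic elements and has limits
at all cusps, has vanishing derivative. -/
theorem deriv_eq_zero_of_periods {N : ℕ} [NeZero N] (u u' : ℍ → ℂ)
    (hu : ∀ τ : ℍ, HasDerivAt (u ∘ ofComplex) (u' τ) (τ : ℂ)) (c : ℂ) (hc : c ≠ 0)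
    (hinv : ∀ (γ : Gamma0 N) (z : ℍ), ∃ t : ℂ, (c * t).re = 0 ∧
      u ((γ : SL(2, ℤ)) • z) = u z + t)
    (hpar : ∀ γ : Gamma0 N, ((γ : SL(2, ℤ)) : Matrix (Fin 2) (Fin 2) ℤ).trace ^ 2 = 4 →
      ∀ z : ℍ, u ((γ : SL(2, ℤ)) • z) = u z)
    (hlim : ∀ δ : SL(2, ℤ), ∃ L : ℂ, Tendsto (fun w : ℍ => u (δ • w)) atImInfty (𝓝 L))
    (τ : ℍ) : u' τ = 0 := by
  let g : ℍ → ℂ := fun z => Complex.exp (c * u z)
  have hgd : ∀ σ : ℍ, HasDerivAt (g ∘ ofComplex) (Complex.exp (c * u σ) * (c * u' σ)) (σ : ℂ) := by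
    intro σ
    have h1 : HasDerivAt (fun w : ℂ => c * (u ∘ ofComplex) w) (c * u' σ) (σ : ℂ) :=
      (hu σ).const_mul c
    have h2 := h1.cexp
    simpa [g, Function.comp_def] using h2
  have hconst : ∀ z w : ℍ, g z = g w := by
    refine H91.const_of_norm_invariant N g ?_ ?_ ?_ ?_
    · intro z hz
      have := hgd ⟨z, hz⟩
      exact this.differentiableAt.differentiableWithinAt
    · intro γ hγ z
      obtain ⟨t, ht, hut⟩ := hinv ⟨γ, hγ⟩ z
      have hut' : u (γ • z) = u z + t := hut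
      simp only [g]
      rw [Complex.norm_exp, Complex.norm_exp, hut', mul_add, Complex.add_re, ht, add_zero]
    · intro δ z
      have e : δ • ((N : ℝ) +ᵥ z) =
          (δ * ModularGroup.T ^ (N : ℤ) * δ⁻¹) • (δ • z) := by
        rw [mul_smul, mul_smul, inv_smul_smul, UpperHalfPlane.modular_T_zpow_smul]
        simp
      have hmem := Fermat.Agent.S22.H25.conj_T_pow_mem_Gamma0 N δ
      have htr : (((⟨_, hmem⟩ : Gamma0 N) : SL(2, ℤ)) : Matrix (Fin 2) (Fin 2) ℤ).trace ^ 2 = 4 := by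
        rw [trace_conj_T_zpow]
        norm_num
      have := hpar ⟨_, hmem⟩ htr (δ • z)
      simp only [g]
      rw [e, this]
    · intro δ
      obtain ⟨L, hL⟩ := hlim δ
      refine ⟨Complex.exp (c * L), ?_⟩
      exact (Complex.continuous_exp.tendsto _).comp (hL.const_mul c)
  have h0 : HasDerivAt (g ∘ ofComplex) 0 (τ : ℂ) := by
    have hopen : {w : ℂ | 0 < w.im} ∈ 𝓝 (τ : ℂ) :=
      (isOpen_lt continuous_const Complex.continuous_im).mem_nhds τ.im_pos
    have heq : (fun _ : ℂ => g τ) =ᶠ[𝓝 (τ : ℂ)] (g ∘ ofComplex) := by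
      filter_upwards [hopen] with w _
      exact hconst _ _
    exact (hasDerivAt_const (τ : ℂ) (g τ)).congr_of_eventuallyEq heq.symm
  have h1 := (hgd τ).unique h0
  rcases mul_eq_zero.mp h1 with h2 | h2
  · exact absurd h2 (Complex.exp_ne_zero _)
  · exact (mul_eq_zero.mp h2).resolve_left hc

/-- Periods of an equivariant primitive vanish on elements with `trace ^ 2 = 4`. -/
theorem period_eq_zero_of_trace {N : ℕ} {f : CuspForm (Gamma0 N) 2} {F : ℍ → ℂ}
    (hF : HasEquivariantPrimitive N f F) (γ : Gamma0 N)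
    (hγ : ((γ : SL(2, ℤ)) : Matrix (Fin 2) (Fin 2) ℤ).trace ^ 2 = 4) :
    hF.2.2.1.period γ = 0 :=
  H23.isParabolicHom_periodHom hF.2.2.1 hF.2.2.2 γ hγ

theorem trace_jConjGamma0 {N : ℕ} (γ : Gamma0 N) :
    (((jConjGamma0 N γ : Gamma0 N) : SL(2, ℤ)) : Matrix (Fin 2) (Fin 2) ℤ).trace =
      ((γ : SL(2, ℤ)) : Matrix (Fin 2) (Fin 2) ℤ).trace := by
  rw [jConjGamma0_coe, jConjSL_coe, jConjMat_trace]

/-- P3b: if the combined periods of `(f, g)` vanish, then `f = g = 0`. -/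
theorem eq_zero_of_pair (N : ℕ) [NeZero N] (f g : CuspForm (Gamma0 N) 2) (F G : ℍ → ℂ)
    (hF : HasEquivariantPrimitive N f F) (hG : HasEquivariantPrimitive N g G)
    (h : ∀ γ : Gamma0 N, (hF.2.2.1.period γ + hF.2.2.1.period (jConjGamma0 N γ)) +
      (hG.2.2.1.period γ - hG.2.2.1.period (jConjGamma0 N γ)) = 0) : f = 0 ∧ g = 0 := by
  -- transformation laws
  have hA : ∀ (γ : Gamma0 N) (z : ℍ), F ((γ : SL(2, ℤ)) • z) + G ((γ : SL(2, ℤ)) • z) =
      F z + G z + (hF.2.2.1.period γ + hG.2.2.1.period γ) := by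
    intro γ z
    have h1 := hF.2.2.1.sub_eq_period γ z
    have h2 := hG.2.2.1.sub_eq_period γ z
    linear_combination h1 + h2
  have hB : ∀ (γ : Gamma0 N) (z : ℍ),
      conj (F (refl ((γ : SL(2, ℤ)) • z)) - G (refl ((γ : SL(2, ℤ)) • z))) =
        conj (F (refl z) - G (refl z)) +
          conj (hF.2.2.1.period (jConjGamma0 N γ) - hG.2.2.1.period (jConjGamma0 N γ)) := by
    intro γ z
    have h1 := hF.2.2.1.sub_eq_period (jConjGamma0 N γ) (refl z)
    have h2 := hG.2.2.1.sub_eq_period (jConjGamma0 N γ) (refl z)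
    rw [jConjGamma0_coe] at h1 h2
    rw [refl_smul, ← map_add]
    congr 1
    linear_combination h1 - h2
  have hB' : ∀ (γ : Gamma0 N) (z : ℍ),
      conj (F (refl ((γ : SL(2, ℤ)) • z)) - G (refl ((γ : SL(2, ℤ)) • z))) =
        conj (F (refl z) - G (refl z)) - conj (hF.2.2.1.period γ + hG.2.2.1.period γ) := by
    intro γ z
    rw [hB γ z]
    have e : hF.2.2.1.period (jConjGamma0 N γ) - hG.2.2.1.period (jConjGamma0 N γ) =
        -(hF.2.2.1.period γ + hG.2.2.1.period γ) := by linear_combination h γ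
    rw [e, map_neg]
    ring
  -- limits
  have hlimA : ∀ δ : SL(2, ℤ), ∃ L : ℂ,
      Tendsto (fun w : ℍ => F (δ • w) + G (δ • w)) atImInfty (𝓝 L) := by
    intro δ
    obtain ⟨L1, hL1⟩ := hF.2.2.2 δ
    obtain ⟨L2, hL2⟩ := hG.2.2.2 δ
    exact ⟨L1 + L2, hL1.add hL2⟩
  have hlimB : ∀ δ : SL(2, ℤ), ∃ L : ℂ,
      Tendsto (fun w : ℍ => conj (F (refl (δ • w)) - G (refl (δ • w)))) atImInfty (𝓝 L) := by
    intro δ
    obtain ⟨L1, hL1⟩ := hF.2.2.2 (jConjSL δ)
    obtain ⟨L2, hL2⟩ := hG.2.2.2 (jConjSL δ)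
    refine ⟨conj (L1 - L2), ?_⟩
    have h1 : Tendsto (fun w : ℍ => F (jConjSL δ • refl w) - G (jConjSL δ • refl w)) atImInfty
        (𝓝 (L1 - L2)) := (hL1.comp tendsto_refl).sub (hL2.comp tendsto_refl)
    have h2 := (Complex.continuous_conj.tendsto (L1 - L2)).comp h1
    refine h2.congr fun w => ?_
    simp only [Function.comp_apply, refl_smul]
  -- derivatives
  have hdA : ∀ τ : ℍ, HasDerivAt ((fun z : ℍ => F z + G z) ∘ ofComplex) (f τ + g τ) (τ : ℂ) :=
    fun τ => (hF.1 τ).add (hG.1 τ)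
  have hdB : ∀ τ : ℍ, HasDerivAt ((fun z : ℍ => conj (F (refl z) - G (refl z))) ∘ ofComplex)
      (-conj (f (refl τ) - g (refl τ))) (τ : ℂ) := by
    intro τ
    have h1 : HasDerivAt ((fun z : ℍ => F z - G z) ∘ ofComplex) (f (refl τ) - g (refl τ))
        ((refl τ : ℍ) : ℂ) := (hF.1 (refl τ)).sub (hG.1 (refl τ))
    exact hasDerivAt_conj_refl (H := fun z : ℍ => F z - G z) τ h1
  -- parabolic invariance
  have hparA : ∀ γ : Gamma0 N, ((γ : SL(2, ℤ)) : Matrix (Fin 2) (Fin 2) ℤ).trace ^ 2 = 4 →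
      ∀ z : ℍ, F ((γ : SL(2, ℤ)) • z) + G ((γ : SL(2, ℤ)) • z) = F z + G z := by
    intro γ hγ z
    rw [hA γ z, period_eq_zero_of_trace hF γ hγ, period_eq_zero_of_trace hG γ hγ]
    ring
  have hparB : ∀ γ : Gamma0 N, ((γ : SL(2, ℤ)) : Matrix (Fin 2) (Fin 2) ℤ).trace ^ 2 = 4 →
      ∀ z : ℍ, conj (F (refl ((γ : SL(2, ℤ)) • z)) - G (refl ((γ : SL(2, ℤ)) • z))) =
        conj (F (refl z) - G (refl z)) := by
    intro γ hγ z
    have hγ' : (((jConjGamma0 N γ : Gamma0 N) : SL(2, ℤ)) : Matrix (Fin 2) (Fin 2) ℤ).trace ^ 2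
        = 4 := by rw [trace_jConjGamma0]; exact hγ
    rw [hB γ z, period_eq_zero_of_trace hF _ hγ', period_eq_zero_of_trace hG _ hγ']
    simp
  -- first function: u = A + Bc, multiplier 1
  have h1 : ∀ τ : ℍ, (f τ + g τ) + -conj (f (refl τ) - g (refl τ)) = 0 := by
    intro τ
    refine deriv_eq_zero_of_periods (N := N)
      (fun z : ℍ => (F z + G z) + conj (F (refl z) - G (refl z)))
      (fun τ : ℍ => (f τ + g τ) + -conj (f (refl τ) - g (refl τ)))
      (fun σ => (hdA σ).add (hdB σ)) 1 one_ne_zero ?_ ?_ ?_ τ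
    · intro γ z
      refine ⟨(hF.2.2.1.period γ + hG.2.2.1.period γ) -
        conj (hF.2.2.1.period γ + hG.2.2.1.period γ), ?_, ?_⟩
      · simp
        try ring
      · rw [hA γ z, hB' γ z]
        ring
    · intro γ hγ z
      rw [hparA γ hγ z, hparB γ hγ z]
    · intro δ
      obtain ⟨L1, hL1⟩ := hlimA δ
      obtain ⟨L2, hL2⟩ := hlimB δ
      exact ⟨L1 + L2, hL1.add hL2⟩
  -- second function: v = A - Bc, multiplier I
  have h2 : ∀ τ : ℍ, (f τ + g τ) - -conj (f (refl τ) - g (refl τ)) = 0 := by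
    intro τ
    refine deriv_eq_zero_of_periods (N := N)
      (fun z : ℍ => (F z + G z) - conj (F (refl z) - G (refl z)))
      (fun τ : ℍ => (f τ + g τ) - -conj (f (refl τ) - g (refl τ)))
      (fun σ => (hdA σ).sub (hdB σ)) Complex.I Complex.I_ne_zero ?_ ?_ ?_ τ
    · intro γ z
      refine ⟨(hF.2.2.1.period γ + hG.2.2.1.period γ) +
        conj (hF.2.2.1.period γ + hG.2.2.1.period γ), ?_, ?_⟩
      · simp
        try ring
      · rw [hA γ z, hB' γ z]
        ring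
    · intro γ hγ z
      rw [hparA γ hγ z, hparB γ hγ z]
    · intro δ
      obtain ⟨L1, hL1⟩ := hlimA δ
      obtain ⟨L2, hL2⟩ := hlimB δ
      exact ⟨L1 - L2, hL1.sub hL2⟩
  -- conclusion
  have hsum : ∀ τ : ℍ, f τ + g τ = 0 := by
    intro τ
    linear_combination (1 / 2 : ℂ) * h1 τ + (1 / 2 : ℂ) * h2 τ
  have hdiff : ∀ τ : ℍ, f τ - g τ = 0 := by
    intro τ
    have h3 : conj (f (refl (refl τ)) - g (refl (refl τ))) = 0 := by
      linear_combination (-1 / 2 : ℂ) * h1 (refl τ) + (1 / 2 : ℂ) * h2 (refl τ)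
    rw [refl_refl] at h3
    exact (map_eq_zero (starRingEnd ℂ)).mp h3
  refine ⟨?_, ?_⟩
  · ext τ
    have := hsum τ
    have := hdiff τ
    show f τ = 0
    linear_combination (1 / 2 : ℂ) * hsum τ + (1 / 2 : ℂ) * hdiff τ
  · ext τ
    show g τ = 0
    linear_combination (1 / 2 : ℂ) * hsum τ - (1 / 2 : ℂ) * hdiff τ

end Fermat.Agent.S21.H55
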