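import Mathlib
import Fermat.Prelude.Def_ModularCurve_PeriodHomPair
import Fermat.Agent.S22.PerPrim_helper26
import Fermat.Agent.S22.Nice_helper25

/-!
S21, piece P1 (owner: helper25): the normalised equivariant primitive of a weight-2 cusp form on
`Γ₀(N)` exists and is unique; hence `periodMap` is linear and `periodHomPair` has an explicit
formula.
-/

set_option autoImplicit false

namespace Fermat.Agent.S21.H25

open UpperHalfPlane CongruenceSubgroup ModularCurve ModularCurve.Period Filter Topology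
open Fermat.Agent.S22
open scoped MatrixGroups ModularForm

theorem det_coe_eq_one (δ : SL(2, ℤ)) : ((δ : GL (Fin 2) ℝ)).val.det = 1 := by
  rw [← Matrix.GeneralLinearGroup.val_det_apply]; simp

/-- Chain rule: if `F' = f` on `ℍ` then `(F ∘ δ)' = f ∣[2] δ` for `δ : SL(2, ℤ)`. -/
theorem hasDerivAt_comp_smul {F f : ℍ → ℂ}
    (hF : ∀ τ : ℍ, HasDerivAt (F ∘ ofComplex) (f τ) ↑τ) (δ : SL(2, ℤ)) (z : ℍ) :
    HasDerivAt ((fun w : ℍ => F (δ • w)) ∘ ofComplex) ((f ∣[(2 : ℤ)] δ) z) (z : ℂ) := by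
  have hdet1 := det_coe_eq_one δ
  have hdet : 0 < ((δ : GL (Fin 2) ℝ)).val.det := by rw [hdet1]; exact one_pos
  have h1 := (UpperHalfPlane.hasStrictDerivAt_smul hdet z).hasDerivAt
  have h2 : HasDerivAt (F ∘ ofComplex) (f (δ • z))
      ((fun w : ℂ => (((δ : GL (Fin 2) ℝ) • ofComplex w : ℍ) : ℂ)) (z : ℂ)) := by
    simp only [ofComplex_apply]
    exact hF (δ • z)
  have h3 := HasDerivAt.comp (z : ℂ) h2 h1
  have h4 : (f ∣[(2 : ℤ)] δ) z
      = f (δ • z) * ((((δ : GL (Fin 2) ℝ)).val.det : ℂ) / denom (δ : GL (Fin 2) ℝ) z ^ 2) := by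
    rw [ModularForm.SL_slash_apply, hdet1]
    rw [Complex.ofReal_one, one_div, zpow_neg]
    norm_cast
  rw [h4]
  refine h3.congr_of_eventuallyEq (Eventually.of_forall fun w => ?_)
  simp [ofComplex_apply]

/-- **Existence** of the normalised equivariant primitive. -/
theorem exists_hasEquivariantPrimitive (N : ℕ) [NeZero N] (f : CuspForm (Gamma0 N) 2) :
    ∃ F : ℍ → ℂ, HasEquivariantPrimitive N f F := by
  obtain ⟨F, hFper, hFder⟩ := H26.exists_primitive one_pos (H25.cuspForm_isPerDecay N 2 f)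
  refine ⟨F, hFder, hFper.zero_at, ?_, ?_⟩
  · intro γ
    refine ⟨F ((γ : SL(2, ℤ)) • I) - F I, fun z => ?_⟩
    have hD : ∀ z : ℍ,
        HasDerivAt ((fun w : ℍ => F ((γ : SL(2, ℤ)) • w) - F w) ∘ ofComplex) 0 z := by
      intro z
      have h1 := hasDerivAt_comp_smul hFder (γ : SL(2, ℤ)) z
      rw [H25.cuspForm_slash_SL_eq N 2 f γ γ.2] at h1
      have h2 := h1.sub (hFder z)
      rw [sub_self] at h2
      exact h2
    exact H26.eq_of_hasDerivAt_zero hD z I
  · intro δ
    have hper := H25.cuspForm_slash_isPerDecay N 2 f δ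
    obtain ⟨Φ, hΦper, hΦder⟩ := H26.exists_primitive (Nat.cast_pos.mpr (NeZero.pos N)) hper
    refine ⟨F (δ • I) - Φ I, ?_⟩
    have hD : ∀ z : ℍ, HasDerivAt ((fun w : ℍ => F (δ • w) - Φ w) ∘ ofComplex) 0 z := by
      intro z
      have h1 := hasDerivAt_comp_smul hFder δ z
      rw [ModularForm.SL_slash] at h1
      have h2 := h1.sub (hΦder z)
      rw [sub_self] at h2
      exact h2
    have hconst : ∀ w : ℍ, F (δ • w) = Φ w + (F (δ • I) - Φ I) := by
      intro w
      have := H26.eq_of_hasDerivAt_zero hD w I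
      linear_combination this
    have hΦ0 : Tendsto Φ atImInfty (𝓝 0) := hΦper.zero_at
    have hlim : Tendsto (fun w : ℍ => Φ w + (F (δ • I) - Φ I)) atImInfty
        (𝓝 (0 + (F (δ • I) - Φ I))) := hΦ0.add tendsto_const_nhds
    rw [zero_add] at hlim
    exact hlim.congr (fun w => (hconst w).symm)

/-- **Uniqueness** of the normalised equivariant primitive. -/
theorem hasEquivariantPrimitive_unique {N : ℕ} {f : CuspForm (Gamma0 N) 2} {F G : ℍ → ℂ}
    (hF : HasEquivariantPrimitive N f F) (hG : HasEquivariantPrimitive N f G) : F = G := by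
  have hD : ∀ z : ℍ, HasDerivAt ((fun w : ℍ => F w - G w) ∘ ofComplex) 0 z := by
    intro z
    have h2 := (hF.1 z).sub (hG.1 z)
    rw [sub_self] at h2
    exact h2
  have hconst : ∀ w : ℍ, F w - G w = F I - G I := fun w => H26.eq_of_hasDerivAt_zero hD w I
  have hlim : Tendsto (fun w : ℍ => F w - G w) atImInfty (𝓝 (0 - 0)) := hF.2.1.sub hG.2.1
  rw [sub_zero] at hlim
  have hlim' : Tendsto (fun _ : ℍ => F I - G I) atImInfty (𝓝 0) :=
    hlim.congr (fun w => hconst w)
  have h0 : F I - G I = 0 := tendsto_nhds_unique tendsto_const_nhds hlim'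
  funext w
  have := hconst w
  rw [h0] at this
  exact sub_eq_zero.mp this

/-- `periodMap` is the period homomorphism of any normalised equivariant primitive. -/
theorem periodMap_eq {N : ℕ} {f : CuspForm (Gamma0 N) 2} {F : ℍ → ℂ}
    (hF : HasEquivariantPrimitive N f F) : periodMap N f = hF.2.2.1.periodHom := by
  obtain ⟨F₀, h₀, h⟩ := periodMap_def N f hF
  have hFF : F₀ = F := hasEquivariantPrimitive_unique h₀ hF
  subst hFF
  exact h

theorem periodMap_apply {N : ℕ} {f : CuspForm (Gamma0 N) 2} {F : ℍ → ℂ}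
    (hF : HasEquivariantPrimitive N f F) (γ : Gamma0 N) :
    periodMap N f (Additive.ofMul γ) = F ((γ : SL(2, ℤ)) • I) - F I := by
  rw [periodMap_eq hF]
  rfl

theorem periodMap_apply' {N : ℕ} {f : CuspForm (Gamma0 N) 2} {F : ℍ → ℂ}
    (hF : HasEquivariantPrimitive N f F) (γ : Gamma0 N) :
    periodMap N f (Additive.ofMul γ) = hF.2.2.1.period γ := by
  rw [periodMap_eq hF]
  rfl

theorem hasEquivariantPrimitive_add {N : ℕ} {f g : CuspForm (Gamma0 N) 2} {F G : ℍ → ℂ}
    (hF : HasEquivariantPrimitive N f F) (hG : HasEquivariantPrimitive N g G) :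
    HasEquivariantPrimitive N (f + g) (F + G) := by
  refine ⟨fun τ => ?_, ?_, fun γ => ?_, fun δ => ?_⟩
  · exact (hF.1 τ).add (hG.1 τ)
  · have := hF.2.1.add hG.2.1
    rw [add_zero] at this
    exact this
  · obtain ⟨c, hc⟩ := hF.2.2.1 γ
    obtain ⟨d, hd⟩ := hG.2.2.1 γ
    refine ⟨c + d, fun z => ?_⟩
    have h1 := hc z
    have h2 := hd z
    simp only [Pi.add_apply]
    linear_combination h1 + h2
  · obtain ⟨L, hL⟩ := hF.2.2.2 δ
    obtain ⟨M, hM⟩ := hG.2.2.2 δ
    exact ⟨L + M, hL.add hM⟩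

theorem hasEquivariantPrimitive_smul {N : ℕ} {f : CuspForm (Gamma0 N) 2} {F : ℍ → ℂ}
    (hF : HasEquivariantPrimitive N f F) (c : ℂ) :
    HasEquivariantPrimitive N (c • f) (c • F) := by
  refine ⟨fun τ => ?_, ?_, fun γ => ?_, fun δ => ?_⟩
  · exact (hF.1 τ).const_smul c
  · have := hF.2.1.const_smul c
    rw [smul_zero] at this
    exact this
  · obtain ⟨a, ha⟩ := hF.2.2.1 γ
    refine ⟨c * a, fun z => ?_⟩
    have h1 := ha z
    simp only [Pi.smul_apply, smul_eq_mul]
    linear_combination c * h1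
  · obtain ⟨L, hL⟩ := hF.2.2.2 δ
    exact ⟨c • L, hL.const_smul c⟩

/-- `periodMap` as a linear map. -/
noncomputable def pml (N : ℕ) [NeZero N] :
    CuspForm (Gamma0 N) 2 →ₗ[ℂ] (Additive (Gamma0 N) →+ ℂ) where
  toFun := periodMap N
  map_add' f g := by
    obtain ⟨F, hF⟩ := exists_hasEquivariantPrimitive N f
    obtain ⟨G, hG⟩ := exists_hasEquivariantPrimitive N g
    refine AddMonoidHom.ext fun γ => ?_
    obtain ⟨γ, rfl⟩ := Additive.ofMul.surjective γ
    rw [AddMonoidHom.add_apply, periodMap_apply (hasEquivariantPrimitive_add hF hG), periodMap_apply hF,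
      periodMap_apply hG]
    simp only [Pi.add_apply]
    ring
  map_smul' c f := by
    obtain ⟨F, hF⟩ := exists_hasEquivariantPrimitive N f
    refine AddMonoidHom.ext fun γ => ?_
    obtain ⟨γ, rfl⟩ := Additive.ofMul.surjective γ
    rw [RingHom.id_apply, AddMonoidHom.smul_apply, periodMap_apply (hasEquivariantPrimitive_smul hF c),
      periodMap_apply hF]
    simp only [Pi.smul_apply, smul_eq_mul]
    ring

theorem pml_apply (N : ℕ) [NeZero N] (f : CuspForm (Gamma0 N) 2) : pml N f = periodMap N f := rfl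

theorem existsPeriodMapLinear (N : ℕ) [NeZero N] : ExistsPeriodMapLinear N :=
  ⟨pml N, fun _ => rfl⟩

/-- Explicit formula for `periodHomPair`. -/
theorem periodHomPair_apply (N : ℕ) [NeZero N] (f g : CuspForm (Gamma0 N) 2) (γ : Gamma0 N) :
    periodHomPair N (f, g) (Additive.ofMul γ) =
      (periodMap N f (Additive.ofMul γ) + periodMap N f (Additive.ofMul (jConjGamma0 N γ))) +
      (periodMap N g (Additive.ofMul γ) - periodMap N g (Additive.ofMul (jConjGamma0 N γ))) := by
  obtain ⟨p, hp, h⟩ := periodHomPair_def N (existsPeriodMapLinear N)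
  rw [h]
  simp only [LinearMap.coprod_apply, LinearMap.comp_apply, LinearMap.add_apply,
    LinearMap.sub_apply, LinearMap.id_apply, AddMonoidHom.add_apply, AddMonoidHom.sub_apply,
    charInvolution_apply, hp, toMul_ofMul]

end Fermat.Agent.S21.H25
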