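import Mathlib
import Fermat.Prelude.Def_ModularCurve_PeriodHomPair
import Fermat.Agent.S21.Prim_helper25
import Fermat.Agent.S21.Inj_helper55

/-!
S21 (helper25): injectivity of `periodHomPair`, wiring P1 (`Prim_helper25`) with
P3b (`Inj_helper55`, which uses P2 `Parabolic_helper23` and P3a `MaxMod_helper91`).
-/

set_option autoImplicit false

namespace Fermat.Agent.S21.H25

open UpperHalfPlane CongruenceSubgroup ModularCurve ModularCurve.Period
open scoped MatrixGroups

/-- **Injectivity of `periodHomPair`.** -/
theorem periodHomPair_injective (N : ℕ) [NeZero N] : Function.Injective (periodHomPair N) := by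
  rw [injective_iff_map_eq_zero]
  rintro ⟨f, g⟩ hfg
  obtain ⟨F, hF⟩ := exists_hasEquivariantPrimitive N f
  obtain ⟨G, hG⟩ := exists_hasEquivariantPrimitive N g
  have key := H55.eq_zero_of_pair N f g F G hF hG (fun γ => by
    have h1 := periodHomPair_apply N f g γ
    rw [hfg, periodMap_apply' hF, periodMap_apply' hF, periodMap_apply' hG,
      periodMap_apply' hG] at h1
    exact h1.symm)
  rw [key.1, key.2]
  rfl

end Fermat.Agent.S21.H25
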