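import Mathlib
import Fermat.Prelude.Def_ModularCurve_PeriodHomPair
import Fermat.Prelude.Def_ModularCurve_GenusNumerics
import Fermat.Agent.S21.GroupBound_helper50
import Fermat.Agent.S21.Parabolic_helper23
import Fermat.Agent.S21.Injective_helper25
import Fermat.Agent.S24.Cosets_helper35
import Fermat.Agent.S24.CosetOrbits_helper35
import Fermat.Agent.S24.CuspCount_helper20

/-!
S21 (helper25): numeric glue.  The group-theoretic bound (P4, helper50) and the coset counts
(K1–K4) give `finrank parabolicHoms ≤ 2 * genusFormula N`; with injectivity of `periodHomPair`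
this yields `finrank S₂(Γ₀(N)) ≤ genusFormula N` and reduces S21 to the dimension formula S20.
-/

set_option autoImplicit false

namespace Fermat.Agent.S21.H25

open CongruenceSubgroup ModularCurve ModularCurve.Period
open scoped MatrixGroups

theorem finite_parabolicHoms (N : ℕ) [NeZero N] :
    Module.Finite ℂ (parabolicHoms ℂ (Gamma0 N) ℂ) :=
  (H50.finrank_parabolicHoms_Gamma0_add_le N).1

/-- The parabolic cohomology of `Γ₀(N)` has dimension at most `2 g`. -/
theorem finrank_parabolicHoms_le (N : ℕ) [NeZero N] :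
    (Module.finrank ℂ (parabolicHoms ℂ (Gamma0 N) ℂ) : ℚ) ≤ 2 * genusFormula N := by
  have h := (H50.finrank_parabolicHoms_Gamma0_add_le N).2
  have hS := Fermat.Agent.S24.H35.two_mul_card_orbits_S N
  have hST := Fermat.Agent.S24.H35.three_mul_card_orbits_ST N
  have hT := Fermat.Agent.S24.H20.card_orbits_T N
  have hI := Fermat.Agent.S24.H35.index_Gamma0 N (NeZero.ne N)
  rw [hI, hT] at h
  unfold genusFormula
  have h' : (Module.finrank ℂ (parabolicHoms ℂ (Gamma0 N) ℂ) : ℚ)
      + (Nat.card (MulAction.orbitRel.Quotient (Subgroup.zpowers ModularGroup.S)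
          (SL(2, ℤ) ⧸ Gamma0 N)) : ℚ)
      + (Nat.card (MulAction.orbitRel.Quotient
          (Subgroup.zpowers (ModularGroup.S * ModularGroup.T)) (SL(2, ℤ) ⧸ Gamma0 N)) : ℚ)
      + (cuspCount N : ℚ) ≤ (dedekindPsi N : ℚ) + 2 := by exact_mod_cast h
  have hS' : (2 : ℚ) * (Nat.card (MulAction.orbitRel.Quotient (Subgroup.zpowers ModularGroup.S)
      (SL(2, ℤ) ⧸ Gamma0 N)) : ℚ) = (dedekindPsi N : ℚ) + (nuTwo N : ℚ) := by exact_mod_cast hS
  have hST' : (3 : ℚ) * (Nat.card (MulAction.orbitRel.Quotient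
      (Subgroup.zpowers (ModularGroup.S * ModularGroup.T)) (SL(2, ℤ) ⧸ Gamma0 N)) : ℚ)
      = (dedekindPsi N : ℚ) + 2 * (nuThree N : ℚ) := by exact_mod_cast hST
  linarith

/-- `periodHomPair` with codomain restricted to the parabolic homomorphisms. -/
noncomputable def pairPar (N : ℕ) :
    (CuspForm (Gamma0 N) 2 × CuspForm (Gamma0 N) 2) →ₗ[ℂ] parabolicHoms ℂ (Gamma0 N) ℂ :=
  LinearMap.codRestrict _ (periodHomPair N)
    (fun x => H23.range_periodHomPair_le N (LinearMap.mem_range_self _ x))

theorem pairPar_injective (N : ℕ) [NeZero N] : Function.Injective (pairPar N) := by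
  intro x y hxy
  apply periodHomPair_injective N
  exact congrArg Subtype.val hxy

theorem finite_cuspForm_prod (N : ℕ) [NeZero N] :
    Module.Finite ℂ (CuspForm (Gamma0 N) 2 × CuspForm (Gamma0 N) 2) := by
  have := finite_parabolicHoms N
  exact Module.Finite.of_injective (pairPar N) (pairPar_injective N)

theorem finite_cuspForm (N : ℕ) [NeZero N] : Module.Finite ℂ (CuspForm (Gamma0 N) 2) := by
  have := finite_cuspForm_prod N
  exact Module.Finite.of_injective
    (LinearMap.inl ℂ (CuspForm (Gamma0 N) 2) (CuspForm (Gamma0 N) 2)) LinearMap.inl_injective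

theorem two_mul_finrank_cuspForm_le (N : ℕ) [NeZero N] :
    2 * Module.finrank ℂ (CuspForm (Gamma0 N) 2)
      ≤ Module.finrank ℂ (parabolicHoms ℂ (Gamma0 N) ℂ) := by
  have := finite_parabolicHoms N
  have := finite_cuspForm N
  have h := LinearMap.finrank_le_finrank_of_injective (pairPar_injective N)
  rw [Module.finrank_prod] at h
  omega

/-- **By-product, independent of S20**: `dim S₂(Γ₀(N)) ≤ g`. -/
theorem finrank_cuspForm_le (N : ℕ) [NeZero N] :
    (Module.finrank ℂ (CuspForm (Gamma0 N) 2) : ℚ) ≤ genusFormula N := by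
  have h1 := two_mul_finrank_cuspForm_le N
  have h2 := finrank_parabolicHoms_le N
  have h1' : (2 : ℚ) * (Module.finrank ℂ (CuspForm (Gamma0 N) 2) : ℚ)
      ≤ (Module.finrank ℂ (parabolicHoms ℂ (Gamma0 N) ℂ) : ℚ) := by exact_mod_cast h1
  linarith

/-- **S21 from the lower bound of S20**: Eichler–Shimura, given `g ≤ dim S₂(Γ₀(N))`. -/
theorem eichlerShimura_of_le (N : ℕ) [NeZero N]
    (h20 : genusFormula N ≤ (Module.finrank ℂ (CuspForm (Gamma0 N) 2) : ℚ)) :
    Function.Injective (periodHomPair N)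
      ∧ LinearMap.range (periodHomPair N) = parabolicHoms ℂ (Gamma0 N) ℂ := by
  refine ⟨periodHomPair_injective N, ?_⟩
  have := finite_parabolicHoms N
  have := finite_cuspForm N
  refine Submodule.eq_of_le_of_finrank_le (H23.range_periodHomPair_le N) ?_
  rw [LinearMap.finrank_range_of_inj (periodHomPair_injective N), Module.finrank_prod]
  have h2 := finrank_parabolicHoms_le N
  have h3 : (Module.finrank ℂ (parabolicHoms ℂ (Gamma0 N) ℂ) : ℚ)
      ≤ ((Module.finrank ℂ (CuspForm (Gamma0 N) 2) + Module.finrank ℂ (CuspForm (Gamma0 N) 2) : ℕ) : ℚ) := by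
    push_cast
    linarith
  exact_mod_cast h3

end Fermat.Agent.S21.H25
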