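import Mathlib
import Fermat.Prelude.Def_ModularCurve_PeriodHomPair

/-! S21, piece P2 (helper55): the range of `periodHomPair` consists of parabolic homomorphisms.

* `exists_conj_T_zpow`: an element of `SL(2, ℤ)` with `trace ^ 2 = 4` is `±` a conjugate of a
  power of `T`;
* `period_eq_zero_of_trace_sq`: periods of an equivariant primitive with cusp limits vanish on
  such elements;
* `range_periodHomPair_le`: the range of `periodHomPair N` is contained in `parabolicHoms`. -/

set_option autoImplicit false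

namespace Fermat.Agent.S21.H55

open UpperHalfPlane CongruenceSubgroup Filter Topology ModularCurve ModularCurve.Period
open scoped MatrixGroups

/-- An integer vector fixed by a trace-two element of `SL(2, ℤ)` which is primitive. -/
theorem exists_fixed_primitive (a b c d : ℤ) (htr : a + d = 2) (hdet : a * d - b * c = 1) :
    ∃ x y : ℤ, IsCoprime x y ∧ a * x + b * y = x ∧ c * x + d * y = y := by
  by_cases hg : b = 0 ∧ a = 1
  · obtain ⟨rfl, rfl⟩ := hg
    refine ⟨0, 1, isCoprime_zero_left.mpr isUnit_one, by ring, ?_⟩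
    have : d = 1 := by linarith
    subst this
    ring
  · have hne : ¬ (b = 0 ∧ 1 - a = 0) := by
      rintro ⟨h1, h2⟩
      exact hg ⟨h1, by linarith⟩
    have hg0 : Int.gcd b (1 - a) ≠ 0 := by
      intro h
      exact hne (Int.gcd_eq_zero_iff.mp h)
    obtain ⟨x, hx⟩ : (Int.gcd b (1 - a) : ℤ) ∣ b := Int.gcd_dvd_left _ _
    obtain ⟨y, hy⟩ : (Int.gcd b (1 - a) : ℤ) ∣ (1 - a) := Int.gcd_dvd_right _ _
    have hgne : ((Int.gcd b (1 - a) : ℕ) : ℤ) ≠ 0 := by exact_mod_cast hg0
    set g : ℤ := (Int.gcd b (1 - a) : ℤ) with hgdef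
    have hcop : IsCoprime x y := by
      have h := Int.isCoprime_iff_gcd_eq_one.mpr
        (Int.gcd_div_gcd_div_gcd (i := b) (j := 1 - a) (Nat.pos_of_ne_zero hg0))
      have hx' : b / g = x := by
        rw [hx]; exact Int.mul_ediv_cancel_left _ hgne
      have hy' : (1 - a) / g = y := by
        rw [hy]; exact Int.mul_ediv_cancel_left _ hgne
      rw [← hx', ← hy']
      exact h
    refine ⟨x, y, hcop, ?_, ?_⟩
    · -- g * (a x + b y - x) = a b + b (1 - a) - b = 0
      have h : g * (a * x + b * y - x) = 0 := by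
        have : g * (a * x + b * y - x) = a * (g * x) + b * (g * y) - g * x := by ring
        rw [this, ← hx, ← hy]; ring
      have := (mul_eq_zero.mp h).resolve_left hgne
      linarith
    · have h : g * (c * x + d * y - y) = 0 := by
        have : g * (c * x + d * y - y) = c * (g * x) + d * (g * y) - g * y := by ring
        rw [this, ← hx, ← hy]
        have hd : d = 2 - a := by linarith
        subst hd
        linear_combination (-1 : ℤ) * hdet
      have := (mul_eq_zero.mp h).resolve_left hgne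
      linarith

/-- A trace-two element of `SL(2, ℤ)` is conjugate to a power of `T`. -/
theorem exists_conj_T_zpow_of_trace_two (γ : SL(2, ℤ))
    (h : (γ : Matrix (Fin 2) (Fin 2) ℤ).trace = 2) :
    ∃ (δ : SL(2, ℤ)) (m : ℤ), γ = δ * ModularGroup.T ^ m * δ⁻¹ := by
  have htr : γ 0 0 + γ 1 1 = 2 := by
    rw [Matrix.trace_fin_two] at h
    exact h
  have hdet : γ 0 0 * γ 1 1 - γ 0 1 * γ 1 0 = 1 := by
    have := γ.det_coe
    rw [Matrix.det_fin_two] at this
    exact this
  obtain ⟨x, y, hcop, h1, h2⟩ := exists_fixed_primitive _ _ _ _ htr hdet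
  obtain ⟨u, v, huv⟩ := hcop
  let δ : SL(2, ℤ) := ⟨!![x, -v; y, u], by rw [Matrix.det_fin_two_of]; linarith⟩
  have hδ : (δ : Matrix (Fin 2) (Fin 2) ℤ) = !![x, -v; y, u] := rfl
  have hδi : ((δ⁻¹ : SL(2, ℤ)) : Matrix (Fin 2) (Fin 2) ℤ) = !![u, v; -y, x] := by
    rw [Matrix.SpecialLinearGroup.coe_inv, hδ, Matrix.adjugate_fin_two_of]
    simp
  let η : SL(2, ℤ) := δ⁻¹ * γ * δ
  have hη : (η : Matrix (Fin 2) (Fin 2) ℤ) =
      !![u, v; -y, x] * (γ : Matrix (Fin 2) (Fin 2) ℤ) * !![x, -v; y, u] := by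
    show ((δ⁻¹ * γ * δ : SL(2, ℤ)) : Matrix (Fin 2) (Fin 2) ℤ) = _
    rw [Matrix.SpecialLinearGroup.coe_mul, Matrix.SpecialLinearGroup.coe_mul, hδ, hδi]
  have e00 : η 0 0 = 1 := by
    show (η : Matrix (Fin 2) (Fin 2) ℤ) 0 0 = 1
    rw [hη]
    simp only [Matrix.mul_apply, Fin.sum_univ_two, Matrix.of_apply, Matrix.cons_val_zero,
      Matrix.cons_val_one, Matrix.cons_val', Matrix.cons_val_fin_one]
    linear_combination u * h1 + v * h2 + huv
  have e10 : η 1 0 = 0 := by
    show (η : Matrix (Fin 2) (Fin 2) ℤ) 1 0 = 0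
    rw [hη]
    simp only [Matrix.mul_apply, Fin.sum_univ_two, Matrix.of_apply, Matrix.cons_val_zero,
      Matrix.cons_val_one, Matrix.cons_val', Matrix.cons_val_fin_one]
    linear_combination (-y) * h1 + x * h2
  have e11 : η 1 1 = 1 := by
    have := η.det_coe
    rw [Matrix.det_fin_two] at this
    have e00' : (η : Matrix (Fin 2) (Fin 2) ℤ) 0 0 = 1 := e00
    have e10' : (η : Matrix (Fin 2) (Fin 2) ℤ) 1 0 = 0 := e10
    rw [e00', e10'] at this
    show (η : Matrix (Fin 2) (Fin 2) ℤ) 1 1 = 1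
    linarith
  refine ⟨δ, η 0 1, ?_⟩
  have hT : η = ModularGroup.T ^ (η 0 1) := by
    apply Subtype.ext
    rw [ModularGroup.coe_T_zpow]
    ext i j
    fin_cases i <;> fin_cases j
    · exact e00
    · rfl
    · exact e10
    · exact e11
  rw [← hT]
  show γ = δ * (δ⁻¹ * γ * δ) * δ⁻¹
  group

/-- An element of `SL(2, ℤ)` with `trace ^ 2 = 4` is, up to sign, conjugate to a power of `T`. -/
theorem exists_conj_T_zpow (γ : SL(2, ℤ))
    (h : (γ : Matrix (Fin 2) (Fin 2) ℤ).trace ^ 2 = 4) :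
    ∃ (δ : SL(2, ℤ)) (m : ℤ),
      γ = δ * ModularGroup.T ^ m * δ⁻¹ ∨ γ = -(δ * ModularGroup.T ^ m * δ⁻¹) := by
  have h2 : (γ : Matrix (Fin 2) (Fin 2) ℤ).trace = 2 ∨
      (γ : Matrix (Fin 2) (Fin 2) ℤ).trace = -2 := by
    have : ((γ : Matrix (Fin 2) (Fin 2) ℤ).trace - 2) *
        ((γ : Matrix (Fin 2) (Fin 2) ℤ).trace + 2) = 0 := by linear_combination h
    rcases mul_eq_zero.mp this with h' | h'
    · left; linarith
    · right; linarith
  rcases h2 with h2 | h2
  · obtain ⟨δ, m, hm⟩ := exists_conj_T_zpow_of_trace_two γ h2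
    exact ⟨δ, m, Or.inl hm⟩
  · have h3 : ((-γ : SL(2, ℤ)) : Matrix (Fin 2) (Fin 2) ℤ).trace = 2 := by
      rw [Matrix.SpecialLinearGroup.coe_neg, Matrix.trace_neg, h2]
      norm_num
    obtain ⟨δ, m, hm⟩ := exists_conj_T_zpow_of_trace_two (-γ) h3
    refine ⟨δ, m, Or.inr ?_⟩
    rw [← hm, neg_neg]

/-- Periods of an equivariant primitive with limits at all cusps vanish on parabolic elements
(and on `±1`). -/
theorem period_eq_zero_of_trace_sq {N : ℕ} {f : CuspForm (Gamma0 N) 2} {F : ℍ → ℂ}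
    (hF : HasEquivariantPrimitive N f F) (γ : Gamma0 N)
    (hγ : ((γ : SL(2, ℤ)) : Matrix (Fin 2) (Fin 2) ℤ).trace ^ 2 = 4) :
    hF.2.2.1.period γ = 0 := by
  obtain ⟨δ, m, hm⟩ := exists_conj_T_zpow (γ : SL(2, ℤ)) hγ
  obtain ⟨L, hL⟩ := hF.2.2.2 δ
  have key : ∀ w : ℍ, (γ : SL(2, ℤ)) • (δ • w) = δ • ((m : ℝ) +ᵥ w) := by
    intro w
    have h1 : (δ * ModularGroup.T ^ m * δ⁻¹) • (δ • w) = δ • ((m : ℝ) +ᵥ w) := by
      rw [mul_smul, mul_smul, inv_smul_smul, UpperHalfPlane.modular_T_zpow_smul]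
    rcases hm with hm | hm
    · rw [hm, h1]
    · rw [hm, ModularGroup.SL_neg_smul, h1]
  have hper : ∀ w : ℍ, F (δ • ((m : ℝ) +ᵥ w)) - F (δ • w) = hF.2.2.1.period γ := by
    intro w
    rw [← key w]
    exact hF.2.2.1.sub_eq_period γ (δ • w)
  have hshift : Tendsto (fun w : ℍ => (m : ℝ) +ᵥ w) atImInfty atImInfty := by
    rw [atImInfty]
    refine tendsto_comap_iff.mpr ?_
    have : (UpperHalfPlane.im ∘ fun w : ℍ => (m : ℝ) +ᵥ w) = UpperHalfPlane.im := by
      funext w
      simp [UpperHalfPlane.vadd_im]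
    rw [this]
    exact tendsto_comap
  have hL2 : Tendsto (fun w : ℍ => F (δ • ((m : ℝ) +ᵥ w))) atImInfty (𝓝 L) :=
    hL.comp hshift
  have hlim : Tendsto (fun w : ℍ => F (δ • ((m : ℝ) +ᵥ w)) - F (δ • w)) atImInfty
      (𝓝 (L - L)) := hL2.sub hL
  have hconst : Tendsto (fun _ : ℍ => hF.2.2.1.period γ) atImInfty (𝓝 (L - L)) :=
    hlim.congr fun w => hper w
  have := tendsto_nhds_unique hconst tendsto_const_nhds
  rw [sub_self] at this
  exact this.symm

/-- The period homomorphism of a weight-two cusp form is parabolic. -/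
theorem periodMap_mem_parabolicHoms (N : ℕ) (f : CuspForm (Gamma0 N) 2) :
    periodMap N f ∈ parabolicHoms ℂ (Gamma0 N) ℂ := by
  classical
  by_cases h : ∃ F : ℍ → ℂ, HasEquivariantPrimitive N f F
  · obtain ⟨F, hF⟩ := h
    obtain ⟨F₀, h₀, hpm⟩ := periodMap_def N f hF
    rw [hpm, mem_parabolicHoms_iff]
    intro γ hγ
    rw [IsEquivariantPrimitive.periodHom_apply]
    exact period_eq_zero_of_trace_sq h₀ γ hγ
  · have : periodMap N f = 0 := by
      unfold periodMap
      rw [dif_neg h]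
    rw [this]
    exact Submodule.zero_mem _

/-- The range of `periodHomPair` consists of parabolic homomorphisms. -/
theorem range_periodHomPair_le (N : ℕ) :
    LinearMap.range (periodHomPair N) ≤ parabolicHoms ℂ (Gamma0 N) ℂ := by
  classical
  rintro _ ⟨⟨f, g⟩, rfl⟩
  by_cases h : ExistsPeriodMapLinear N
  · obtain ⟨pml, hpml, hdef⟩ := periodHomPair_def N h
    rw [hdef, LinearMap.coprod_apply]
    have hf : pml f ∈ parabolicHoms ℂ (Gamma0 N) ℂ := by
      rw [hpml f]; exact periodMap_mem_parabolicHoms N f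
    have hg : pml g ∈ parabolicHoms ℂ (Gamma0 N) ℂ := by
      rw [hpml g]; exact periodMap_mem_parabolicHoms N g
    refine Submodule.add_mem _ ?_ ?_
    · show pml f + charInvolution N ℂ ℂ (pml f) ∈ _
      exact Submodule.add_mem _ hf (charInvolution_mem_parabolicHoms N ℂ ℂ hf)
    · show pml g - charInvolution N ℂ ℂ (pml g) ∈ _
      exact Submodule.sub_mem _ hg (charInvolution_mem_parabolicHoms N ℂ ℂ hg)
  · have : periodHomPair N = 0 := by
      unfold periodHomPair
      rw [dif_neg h]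
    rw [this]
    exact Submodule.zero_mem _

end Fermat.Agent.S21.H55
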